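import Mathlib.NumberTheory.NumberField.DedekindZeta
import Mathlib.NumberTheory.LSeries.Basic
import Fermat.Agent.Density.Analytic

/-!
# Real parts of prime sums from a bounded L-series

If `ψ : ℕ → ℂ` is completely multiplicative, `|ψ| ≤ 1`, and `∑_I ψ(N I) (N I)^{-s}` is bounded
near `s = 1`, then `∑_ℓ #{P : N P = ℓ} Re ψ(ℓ) ℓ^{-s}` is bounded above near `s = 1`.
-/

set_option autoImplicit false

noncomputable section

open NumberField Filter Topology UniqueFactorizationMonoid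
open scoped Classical

namespace Fermat.Agent.DeligneSerre.SymmChebotarev

variable {F : Type*} [Field F] [NumberField F]

/-- The term `ψ(N I) (N I)^{-s}`. -/
def xterm (ψ : ℕ → ℂ) (s : ℝ) (I : Ideal (𝓞 F)) : ℂ :=
  ψ (Ideal.absNorm I) * (((Ideal.absNorm I : ℝ) ^ (-s) : ℝ) : ℂ)

lemma hasSum_absNorm_rpow {s : ℝ} (hs : 1 < s) :
    HasSum (fun I : Ideal (𝓞 F) ↦ (Ideal.absNorm I : ℝ) ^ (-s)) (dedekindZeta F s).re := by
  have hev : ∀ᶠ t : ℝ in 𝓝[>] 1, ((t : ℂ) - 1) * dedekindZeta F t ≠ 0 :=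
    (tendsto_sub_one_mul_dedekindZeta_nhdsGT F).eventually_ne
      (Complex.ofReal_ne_zero.mpr (dedekindZeta_residue_ne_zero F))
  obtain ⟨t, ht, hts⟩ := (hev.and (mem_nhdsWithin_of_mem_nhds (Iio_mem_nhds hs))).exists
  have hsum : LSeriesSummable
      (fun n ↦ (Nat.card {I : Ideal (𝓞 F) // Ideal.absNorm I = n} : ℂ)) (t : ℂ) := by
    by_contra hns
    exact ht (by rw [dedekindZeta, LSeries, tsum_eq_zero_of_not_summable hns, mul_zero])
  have hsum' := hsum.of_re_le_re (s' := (s : ℂ)) (by simpa using (Set.mem_Iio.mp hts).le)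
  have hterm : ∀ n, LSeries.term (fun n ↦ (Nat.card {I : Ideal (𝓞 F) // Ideal.absNorm I = n} : ℂ))
      (s : ℂ) n = (((Nat.card {I : Ideal (𝓞 F) // Ideal.absNorm I = n} : ℝ) * (n : ℝ) ^ (-s) : ℝ) : ℂ) := by
    intro n
    rcases eq_or_ne n 0 with rfl | hn
    · simp [LSeries.term, Real.zero_rpow (neg_ne_zero.mpr (show s ≠ 0 by linarith))]
    · rw [LSeries.term_of_ne_zero hn, div_eq_mul_inv, ← Complex.cpow_neg, ← Complex.ofReal_neg,
        Complex.ofReal_mul, Complex.ofReal_cpow (Nat.cast_nonneg n)]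
      simp
  have h1 := Complex.hasSum_re hsum'.LSeriesHasSum
  simp only [hterm, Complex.ofReal_re] at h1
  rw [← (Equiv.sigmaFiberEquiv (Ideal.absNorm : Ideal (𝓞 F) → ℕ)).hasSum_iff]
  have hfib : ∀ n : ℕ, HasSum
      (fun I : {I : Ideal (𝓞 F) // Ideal.absNorm I = n} ↦ (Ideal.absNorm I.1 : ℝ) ^ (-s))
      ((Nat.card {I : Ideal (𝓞 F) // Ideal.absNorm I = n} : ℝ) * (n : ℝ) ^ (-s)) := fun n ↦ by
    have : Finite {I : Ideal (𝓞 F) // Ideal.absNorm I = n} :=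
      (Ideal.finite_setOfPred_absNorm_eq (S := 𝓞 F) n).to_subtype
    have := Fintype.ofFinite {I : Ideal (𝓞 F) // Ideal.absNorm I = n}
    have e : (Nat.card {I : Ideal (𝓞 F) // Ideal.absNorm I = n} : ℝ) * (n : ℝ) ^ (-s) =
        ∑ I : {I : Ideal (𝓞 F) // Ideal.absNorm I = n}, (Ideal.absNorm I.1 : ℝ) ^ (-s) := by
      rw [Finset.sum_congr rfl fun I _ ↦ (by rw [I.2] :
        (Ideal.absNorm I.1 : ℝ) ^ (-s) = (n : ℝ) ^ (-s)), Finset.sum_const, Finset.card_univ,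
        nsmul_eq_mul, Nat.card_eq_fintype_card]
    rw [e]
    exact hasSum_fintype _
  refine HasSum.sigma_of_hasSum h1 hfib ?_
  exact (summable_sigma_of_nonneg fun x ↦ Real.rpow_nonneg (Nat.cast_nonneg _) _).mpr
    ⟨fun n ↦ (hfib n).summable, h1.summable.congr fun n ↦ (hfib n).tsum_eq.symm⟩

/-- The Dedekind zeta sum is `O(1/(s-1))`. -/
lemma exists_tsum_absNorm_rpow_le : ∃ C : ℝ, 0 < C ∧ ∀ᶠ s in 𝓝[>] (1 : ℝ),
    ∑' I : Ideal (𝓞 F), (Ideal.absNorm I : ℝ) ^ (-s) ≤ C / (s - 1) := by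
  refine ⟨|dedekindZeta_residue F| + 1, by positivity, ?_⟩
  have h := (Complex.continuous_re.tendsto _).comp (tendsto_sub_one_mul_dedekindZeta_nhdsGT F)
  simp only [Complex.ofReal_re] at h
  filter_upwards [h.eventually (gt_mem_nhds (lt_add_one _)), self_mem_nhdsWithin] with s hs hs1
  have hs1' : (1 : ℝ) < s := hs1
  rw [(hasSum_absNorm_rpow hs1').tsum_eq, le_div_iff₀ (by linarith)]
  simp only [Function.comp_apply, ← Complex.ofReal_one, ← Complex.ofReal_sub,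
    Complex.re_ofReal_mul] at hs
  linarith [le_abs_self (dedekindZeta_residue F)]

variable {ψ : ℕ → ℂ}

lemma norm_xterm_le (hle : ∀ n, ‖ψ n‖ ≤ 1) (s : ℝ) (I : Ideal (𝓞 F)) :
    ‖xterm ψ s I‖ ≤ (Ideal.absNorm I : ℝ) ^ (-s) := by
  rw [xterm, norm_mul, Complex.norm_real, Real.norm_of_nonneg (by positivity)]
  exact mul_le_of_le_one_left (by positivity) (hle _)

lemma summable_xterm (hle : ∀ n, ‖ψ n‖ ≤ 1) {s : ℝ} (hs : 1 < s) :
    Summable fun I : Ideal (𝓞 F) ↦ xterm ψ s I :=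
  (hasSum_absNorm_rpow hs).summable.of_norm_bounded (norm_xterm_le hle s)

lemma xterm_mul (hmul : ∀ m n, ψ (m * n) = ψ m * ψ n) (s : ℝ) (I J : Ideal (𝓞 F)) :
    xterm ψ s (I * J) = xterm ψ s I * xterm ψ s J := by
  simp only [xterm, map_mul, hmul, Nat.cast_mul,
    Real.mul_rpow (Nat.cast_nonneg _) (Nat.cast_nonneg _), Complex.ofReal_mul]
  ring

/-- Removing finitely many Euler factors. -/
lemma prod_one_sub_mul_tsum (hmul : ∀ m n, ψ (m * n) = ψ m * ψ n) (hle : ∀ n, ‖ψ n‖ ≤ 1)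
    {s : ℝ} (hs : 1 < s) (T : Finset (Ideal (𝓞 F))) (hT : ∀ P ∈ T, Prime P) :
    (∏ P ∈ T, (1 - xterm ψ s P)) * ∑' I : Ideal (𝓞 F), xterm ψ s I =
      ∑' I : Ideal (𝓞 F), (if ∀ P ∈ T, ¬ P ∣ I then xterm ψ s I else 0) := by
  have hsum : ∀ (p : Ideal (𝓞 F) → Prop) [DecidablePred p],
      Summable fun I ↦ if p I then xterm ψ s I else 0 :=
    fun p _ ↦ (hasSum_absNorm_rpow hs).summable.of_norm_bounded fun I ↦ by
      split_ifs
      · exact norm_xterm_le hle s I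
      · simp [Real.rpow_nonneg]
  induction T using Finset.induction_on with
  | empty => simp
  | insert P T hPT ih =>
    have hP : Prime P := hT P (Finset.mem_insert_self _ _)
    have hT' : ∀ Q ∈ T, Prime Q := fun Q hQ ↦ hT Q (Finset.mem_insert_of_mem hQ)
    rw [Finset.prod_insert hPT, mul_assoc, ih hT', sub_mul, one_mul, ← tsum_mul_left]
    have key : ∀ I, (∀ Q ∈ T, ¬ Q ∣ P * I) ↔ ∀ Q ∈ T, ¬ Q ∣ I := fun I ↦ by
      refine forall₂_congr fun Q hQ ↦ not_congr ⟨fun h ↦ ?_, fun h ↦ h.mul_left P⟩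
      refine ((hT' Q hQ).dvd_or_dvd h).resolve_left fun hQP ↦ hPT ?_
      rwa [← associated_iff_eq.mp ((hT' Q hQ).associated_of_dvd hP hQP)]
    have hshift : ∑' I, xterm ψ s P * (if ∀ Q ∈ T, ¬ Q ∣ I then xterm ψ s I else 0) =
        ∑' J, (if P ∣ J ∧ ∀ Q ∈ T, ¬ Q ∣ J then xterm ψ s J else 0) := by
      rw [← (mul_right_injective₀ hP.ne_zero).tsum_eq (f := fun J ↦
        if P ∣ J ∧ ∀ Q ∈ T, ¬ Q ∣ J then xterm ψ s J else 0)]
      · refine tsum_congr fun I ↦ ?_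
        simp only [dvd_mul_right, true_and, key]
        split_ifs <;> simp [xterm_mul hmul]
      · intro J hJ
        simp only [Function.mem_support, ne_eq, ite_eq_right_iff, not_forall] at hJ
        obtain ⟨⟨⟨I, rfl⟩, -⟩, -⟩ := hJ
        exact ⟨I, rfl⟩
    rw [hshift, ← (hsum fun I ↦ ∀ Q ∈ T, ¬ Q ∣ I).tsum_sub
      (hsum fun J ↦ P ∣ J ∧ ∀ Q ∈ T, ¬ Q ∣ J)]
    refine tsum_congr fun I ↦ ?_
    simp only [Finset.forall_mem_insert]
    by_cases h1 : P ∣ I <;> by_cases h2 : ∀ Q ∈ T, ¬ Q ∣ I <;> simp [h1, h2]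

/-- The partial Euler products tend to the L-series. -/
lemma eventually_norm_prod_sub_one_le (hmul : ∀ m n, ψ (m * n) = ψ m * ψ n) (hone : ψ 1 = 1)
    (hle : ∀ n, ‖ψ n‖ ≤ 1) {s : ℝ} (hs : 1 < s) :
    ∀ᶠ T : Finset {P : Ideal (𝓞 F) // Prime P} in atTop,
      ‖(∏ P ∈ T, (1 - xterm ψ s P.1)) * (∑' I : Ideal (𝓞 F), xterm ψ s I) - 1‖ ≤ 1 / 2 := by
  have hwt := (hasSum_absNorm_rpow (F := F) hs).summable
  obtain ⟨J, hJ⟩ : ∃ J : Finset (Ideal (𝓞 F)), ∀ T : Finset (Ideal (𝓞 F)), Disjoint T J →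
      ‖∑ I ∈ T, (Ideal.absNorm I : ℝ) ^ (-s)‖ < 1 / 2 :=
    hwt.vanishing (Metric.ball_mem_nhds 0 (by norm_num : (0 : ℝ) < 1 / 2)) |>.imp fun J h T hT ↦ by
      simpa using h T hT
  have hex : ∀ I : Ideal (𝓞 F), I ≠ 0 → I ≠ ⊤ → ∃ P, Prime P ∧ P ∣ I := fun I h0 h1 ↦ by
    obtain ⟨P, hPi, hPI⟩ := WfDvdMonoid.exists_irreducible_factor
      (fun h ↦ h1 (Ideal.isUnit_iff.mp h)) h0
    exact ⟨P, irreducible_iff_prime.mp hPi, hPI⟩
  choose! P hPp hPd using hex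
  let T₀ : Finset {P : Ideal (𝓞 F) // Prime P} :=
    ((J.filter fun I ↦ I ≠ 0 ∧ I ≠ ⊤).image P).subtype _
  filter_upwards [eventually_ge_atTop T₀] with T hT
  set T' := T.map ⟨Subtype.val, Subtype.val_injective⟩ with hT'def
  have hT' : ∀ Q ∈ T', Prime Q := fun Q hQ ↦ by
    obtain ⟨R, -, rfl⟩ := Finset.mem_map.mp hQ
    exact R.2
  have hprod : ∏ P ∈ T, (1 - xterm ψ s P.1) = ∏ P ∈ T', (1 - xterm ψ s P) := by
    rw [hT'def, Finset.prod_map]; rfl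
  rw [hprod, prod_one_sub_mul_tsum hmul hle hs T' hT']
  set f : Ideal (𝓞 F) → ℂ := fun I ↦ if ∀ P ∈ T', ¬ P ∣ I then xterm ψ s I else 0
  have hf : Summable f := hwt.of_norm_bounded fun I ↦ by
    simp only [f]; split_ifs
    · exact norm_xterm_le hle s I
    · simp [Real.rpow_nonneg]
  have htop : f ⊤ = 1 := by
    have : ∀ Q ∈ T', ¬ Q ∣ (⊤ : Ideal (𝓞 F)) := fun Q hQ h ↦
      (hT' Q hQ).not_unit (isUnit_of_dvd_unit h (Ideal.isUnit_iff.mpr rfl))
    simp only [f, if_pos this, xterm, Ideal.absNorm_top, hone, Nat.cast_one, Real.one_rpow,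
      Complex.ofReal_one, mul_one]
  rw [hf.tsum_eq_add_tsum_ite ⊤, htop, add_sub_cancel_left]
  have hite : Summable fun I : Ideal (𝓞 F) ↦ if I = ⊤ then (0 : ℂ) else f I :=
    hwt.of_norm_bounded fun I ↦ by
      split_ifs
      · simp [Real.rpow_nonneg]
      · simp only [f]; split_ifs
        · exact norm_xterm_le hle s I
        · simp [Real.rpow_nonneg]
  refine le_of_tendsto hite.hasSum.norm (Eventually.of_forall fun U ↦ ?_)
  refine (norm_sum_le _ _).trans (le_trans ?_ (le_trans (le_abs_self _)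
    (hJ (U.filter (· ∉ J)) (Finset.disjoint_left.mpr fun I hI ↦ (Finset.mem_filter.mp hI).2)).le))
  rw [Finset.sum_filter]
  refine Finset.sum_le_sum fun I _ ↦ ?_
  by_cases hI : I ∈ J
  · rw [if_neg (not_not.mpr hI)]
    split_ifs with h1
    · simp
    · by_cases h0 : I = 0
      · subst h0
        simp [f, xterm, Real.zero_rpow (neg_ne_zero.mpr (show s ≠ 0 by linarith))]
      · have hmem : P I ∈ T' := Finset.mem_map.mpr ⟨⟨P I, hPp I h0 h1⟩, hT (Finset.mem_subtype.mpr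
          (Finset.mem_image_of_mem _ (Finset.mem_filter.mpr ⟨hI, h0, h1⟩))), rfl⟩
        simp only [f, if_neg fun h : ∀ Q ∈ T', ¬ Q ∣ I ↦ h _ hmem (hPd I h0 h1), norm_zero, le_refl]
  · rw [if_pos hI]
    split_ifs
    · simp [Real.rpow_nonneg]
    · simp only [f]; split_ifs
      · exact norm_xterm_le hle s I
      · simp [Real.rpow_nonneg]

/-- `∑_P Re x_P ≤ log |L| + O(1)`. -/
lemma tsum_re_prime_le (hmul : ∀ m n, ψ (m * n) = ψ m * ψ n) (hone : ψ 1 = 1)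
    (hle : ∀ n, ‖ψ n‖ ≤ 1) {s : ℝ} (hs : 1 < s) :
    0 < ‖∑' I : Ideal (𝓞 F), xterm ψ s I‖ ∧
    ∑' P : {P : Ideal (𝓞 F) // Prime P}, (xterm ψ s P.1).re ≤
      Real.log ‖∑' I : Ideal (𝓞 F), xterm ψ s I‖ + Real.log 2 +
        ∑' I : Ideal (𝓞 F), (Ideal.absNorm I : ℝ) ^ (-(2 : ℝ)) := by
  set L := ∑' I : Ideal (𝓞 F), xterm ψ s I
  have hev := eventually_norm_prod_sub_one_le (F := F) hmul hone hle hs
  have hkey : ∀ T : Finset {P : Ideal (𝓞 F) // Prime P},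
      ‖(∏ P ∈ T, (1 - xterm ψ s P.1)) * L - 1‖ ≤ 1 / 2 →
      0 < ‖L‖ ∧ ∑ P ∈ T, (xterm ψ s P.1).re ≤ Real.log ‖L‖ + Real.log 2 +
        ∑' I : Ideal (𝓞 F), (Ideal.absNorm I : ℝ) ^ (-(2 : ℝ)) := by
    intro T hT
    have hlow : 1 / 2 ≤ (∏ P ∈ T, ‖1 - xterm ψ s P.1‖) * ‖L‖ := by
      rw [← norm_prod, ← norm_mul]
      have := norm_sub_norm_le (1 : ℂ) ((∏ P ∈ T, (1 - xterm ψ s P.1)) * L)
      rw [norm_one, norm_sub_rev] at this
      linarith
    have hL : 0 < ‖L‖ := lt_of_le_of_ne (norm_nonneg _) fun h ↦ by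
      rw [← h, mul_zero] at hlow; linarith
    have hne : ∀ P ∈ T, 0 < ‖1 - xterm ψ s P.1‖ := fun P hP ↦
      lt_of_le_of_ne (norm_nonneg _) fun h ↦ by
        rw [Finset.prod_eq_zero hP h.symm, zero_mul] at hlow; linarith
    refine ⟨hL, ?_⟩
    have hlog : -Real.log 2 ≤ (∑ P ∈ T, Real.log ‖1 - xterm ψ s P.1‖) + Real.log ‖L‖ := by
      rw [← Real.log_prod fun P hP ↦ (hne P hP).ne',
        ← Real.log_mul (Finset.prod_pos hne).ne' hL.ne', ← Real.log_inv]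
      exact Real.log_le_log (by norm_num) (by norm_num; linarith)
    have hterm : ∀ P ∈ T, (xterm ψ s P.1).re ≤
        -Real.log ‖1 - xterm ψ s P.1‖ + (Ideal.absNorm P.1 : ℝ) ^ (-(2 : ℝ)) := by
      intro P hP
      set z := xterm ψ s P.1
      have h1 := Real.log_le_sub_one_of_pos (sq_pos_of_pos (hne P hP))
      have hN : (1 : ℝ) ≤ Ideal.absNorm P.1 := by
        exact_mod_cast Nat.one_le_iff_ne_zero.mpr (Ideal.absNorm_eq_zero_iff.not.mpr P.2.ne_zero)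
      have h2 : ‖z‖ ^ 2 ≤ (Ideal.absNorm P.1 : ℝ) ^ (-(2 : ℝ)) := by
        refine (pow_le_pow_left₀ (norm_nonneg _) (norm_xterm_le hle s P.1) 2).trans ?_
        rw [← Real.rpow_mul_natCast (Nat.cast_nonneg _)]
        exact Real.rpow_le_rpow_of_exponent_le hN (by push_cast; linarith)
      rw [Real.log_pow, Complex.sq_norm, Complex.normSq_sub, Complex.normSq_one,
        ← Complex.sq_norm] at h1
      simp at h1
      have h3 : (0 : ℝ) ≤ ‖z‖ ^ 2 := sq_nonneg _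
      linarith
    refine (Finset.sum_le_sum hterm).trans ?_
    rw [Finset.sum_add_distrib, Finset.sum_neg_distrib]
    have hZ := (hasSum_absNorm_rpow (F := F) one_lt_two).summable.sum_le_tsum
      (T.map ⟨Subtype.val, Subtype.val_injective⟩) fun _ _ ↦ by positivity
    rw [Finset.sum_map] at hZ
    simp only [Function.Embedding.coeFn_mk] at hZ
    linarith
  obtain ⟨T, hT⟩ := hev.exists
  refine ⟨(hkey T hT).1, ?_⟩
  have hsum : Summable fun P : {P : Ideal (𝓞 F) // Prime P} ↦ (xterm ψ s P.1).re :=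
    (Complex.hasSum_re ((summable_xterm hle hs).subtype _).hasSum).summable
  exact le_of_tendsto hsum.hasSum (hev.mono fun T hT ↦ (hkey T hT).2)

/-- Ideals of prime norm, fibred over the norm. -/
private def primeNormFibre : {P : {P : Ideal (𝓞 F) // Prime P} // (Ideal.absNorm P.1).Prime} ≃
    (ℓ : Nat.Primes) × {I : Ideal (𝓞 F) // Ideal.absNorm I = ℓ} where
  toFun P := ⟨⟨Ideal.absNorm P.1.1, P.2⟩, P.1.1, rfl⟩
  invFun x := ⟨⟨x.2.1, by
    have hp : (Ideal.absNorm x.2.1).Prime := x.2.2.symm ▸ x.1.2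
    refine Ideal.prime_of_isPrime ?_ (Ideal.isPrime_of_irreducible_absNorm hp)
    intro h0
    rw [h0, Ideal.absNorm_bot] at hp
    exact Nat.not_prime_zero hp⟩, x.2.2.symm ▸ x.1.2⟩
  left_inv _ := rfl
  right_inv := by rintro ⟨⟨ℓ, hℓ⟩, I, hI⟩; obtain rfl : Ideal.absNorm I = ℓ := hI; rfl

private lemma tsum_prime_split {g : Ideal (𝓞 F) → ℝ} {w : ℕ → ℝ}
    (hgw : ∀ (ℓ : ℕ) (I : Ideal (𝓞 F)), Ideal.absNorm I = ℓ → g I = w ℓ)
    (hg : Summable fun P : {P : Ideal (𝓞 F) // Prime P} ↦ g P.1) :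
    ∑' P : {P : Ideal (𝓞 F) // Prime P}, g P.1 =
      (∑' ℓ : Nat.Primes, (Density.idealCount F ℓ : ℝ) * w ℓ) +
        ∑' P : {P : Ideal (𝓞 F) // Prime P}, (if (Ideal.absNorm P.1).Prime then 0 else g P.1) := by
  let g' : {P : Ideal (𝓞 F) // Prime P} → ℝ := fun P ↦ g P.1
  rw [← (hg.subtype {P | (Ideal.absNorm P.1).Prime}).tsum_add_tsum_compl (hg.subtype _)]
  congr 1
  · refine ((primeNormFibre (F := F)).symm.tsum_eq _).symm.trans ?_
    have hsum := ((primeNormFibre (F := F)).symm.summable_iff).mpr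
      (hg.subtype {P | (Ideal.absNorm P.1).Prime})
    refine (hsum.tsum_sigma' fun ℓ ↦ hsum.sigma_factor ℓ).trans ?_
    refine tsum_congr fun ℓ ↦ ?_
    refine (tsum_congr fun I : {I : Ideal (𝓞 F) // Ideal.absNorm I = ℓ} ↦
      hgw ℓ _ I.2).trans ?_
    rw [tsum_const]
    simp [Density.idealCount]
  · refine (tsum_subtype ({P : {P : Ideal (𝓞 F) // Prime P} | (Ideal.absNorm P.1).Prime}ᶜ) g').trans
      (tsum_congr fun P ↦ ?_)
    simp only [g', Set.indicator_apply, Set.mem_compl_iff, Set.mem_ofPred_eq]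
    split_ifs <;> rfl

/-- **Upper bound for the real part of the prime sum.** -/
theorem exists_re_tsum_idealCount_le (hmul : ∀ m n, ψ (m * n) = ψ m * ψ n) (hone : ψ 1 = 1)
    (hle : ∀ n, ‖ψ n‖ ≤ 1)
    (hbdd : ∃ C : ℝ, ∀ᶠ s in 𝓝[>] (1 : ℝ), ‖∑' I : Ideal (𝓞 F), xterm ψ s I‖ ≤ C) :
    ∃ C : ℝ, ∀ᶠ s in 𝓝[>] (1 : ℝ),
      ∑' ℓ : Nat.Primes, (Density.idealCount F ℓ : ℝ) * ((ψ ℓ).re * (ℓ : ℝ) ^ (-s)) ≤ C := by
  obtain ⟨B, hB⟩ := hbdd
  obtain ⟨CZ, hCZ0, hCZ⟩ := exists_tsum_absNorm_rpow_le (F := F)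
  obtain ⟨CD, hCD⟩ := Density.exists_abs_tsum_idealCount_sub_log_le F
  set Z2 := ∑' I : Ideal (𝓞 F), (Ideal.absNorm I : ℝ) ^ (-(2 : ℝ))
  refine ⟨Real.log (|B| + 1) + Real.log CZ + 2 * Real.log 2 + 2 * Z2 + CD, ?_⟩
  filter_upwards [hB, hCZ, hCD, self_mem_nhdsWithin] with s hsB hsZ hsD' hs
  have hs1 : (1 : ℝ) < s := hs
  obtain ⟨-, hsD⟩ := hsD'
  have hone_le : ∀ _n : ℕ, ‖(1 : ℂ)‖ ≤ 1 := fun _ ↦ le_of_eq norm_one
  obtain ⟨hLpos, hψ⟩ := tsum_re_prime_le (F := F) hmul hone hle hs1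
  obtain ⟨h1pos, h1⟩ := tsum_re_prime_le (F := F) (ψ := fun _ ↦ 1) (by simp) rfl hone_le hs1
  have hx1 : ∀ I : Ideal (𝓞 F), xterm (fun _ ↦ 1) s I = (((Ideal.absNorm I : ℝ) ^ (-s) : ℝ) : ℂ) :=
    fun I ↦ one_mul _
  simp only [hx1, Complex.ofReal_re, ← Complex.ofReal_tsum, Complex.norm_real,
    Real.norm_of_nonneg (tsum_nonneg fun I : Ideal (𝓞 F) ↦ Real.rpow_nonneg (Nat.cast_nonneg _) _)]
    at h1 h1pos
  have hsumP : Summable fun P : {P : Ideal (𝓞 F) // Prime P} ↦ (Ideal.absNorm P.1 : ℝ) ^ (-s) :=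
    (hasSum_absNorm_rpow (F := F) hs1).summable.subtype _
  have hsumR : Summable fun P : {P : Ideal (𝓞 F) // Prime P} ↦ (xterm ψ s P.1).re :=
    (Complex.hasSum_re ((summable_xterm hle hs1).subtype _).hasSum).summable
  rw [tsum_prime_split (g := fun I ↦ (xterm ψ s I).re) (w := fun n ↦ (ψ n).re * (n : ℝ) ^ (-s))
    (fun ℓ I hI ↦ by simp [xterm, hI, Complex.mul_re, ← Complex.ofReal_natCast,
      Complex.ofReal_re, Complex.ofReal_im]) hsumR] at hψ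
  rw [tsum_prime_split (g := fun I ↦ (Ideal.absNorm I : ℝ) ^ (-s))
    (w := fun n ↦ (n : ℝ) ^ (-s)) (fun ℓ I hI ↦ by simp [hI]) hsumP] at h1
  have hrest : -(∑' P : {P : Ideal (𝓞 F) // Prime P},
      (if (Ideal.absNorm P.1).Prime then 0 else (Ideal.absNorm P.1 : ℝ) ^ (-s))) ≤
      ∑' P : {P : Ideal (𝓞 F) // Prime P},
        (if (Ideal.absNorm P.1).Prime then 0 else (xterm ψ s P.1).re) := by
    have hb : ∀ P : {P : Ideal (𝓞 F) // Prime P},
        ‖(if (Ideal.absNorm P.1).Prime then 0 else (xterm ψ s P.1).re)‖ ≤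
          (if (Ideal.absNorm P.1).Prime then 0 else (Ideal.absNorm P.1 : ℝ) ^ (-s)) := fun P ↦ by
      split_ifs
      · simp
      · exact (Complex.abs_re_le_norm _).trans (norm_xterm_le hle s P.1)
    have hsw : Summable fun P : {P : Ideal (𝓞 F) // Prime P} ↦
        (if (Ideal.absNorm P.1).Prime then 0 else (Ideal.absNorm P.1 : ℝ) ^ (-s)) :=
      hsumP.of_nonneg_of_le (fun P ↦ by split_ifs <;> positivity) fun P ↦ by
        split_ifs
        · positivity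
        · exact le_rfl
    have := tsum_of_norm_bounded hsw.hasSum hb
    rw [Real.norm_eq_abs] at this
    exact neg_le_of_abs_le this
  have hlogZ : Real.log (∑' I : Ideal (𝓞 F), (Ideal.absNorm I : ℝ) ^ (-s)) ≤
      Real.log CZ + Real.log (1 / (s - 1)) := by
    rw [← Real.log_mul hCZ0.ne' (div_ne_zero one_ne_zero (by linarith)), ← div_eq_mul_one_div]
    exact Real.log_le_log h1pos hsZ
  have hlogL : Real.log ‖∑' I : Ideal (𝓞 F), xterm ψ s I‖ ≤ Real.log (|B| + 1) :=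
    Real.log_le_log hLpos (by linarith [le_abs_self B])
  obtain ⟨hD1, hD2⟩ := abs_le.mp hsD
  linarith

end Fermat.Agent.DeligneSerre.SymmChebotarev
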