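import Mathlib.NumberTheory.NumberField.InfinitePlace.TotallyRealComplex
import Mathlib.NumberTheory.DirichletCharacter.Bounds
import Fermat.Agent.ClassField.RayLSeriesBound
import Fermat.Agent.ClassField.Recip.RayChar
import Fermat.Agent.DeligneSerre.SymmChebotarev.EulerLog

/-!
# Dirichlet characters composed with the ideal norm of a totally complex field
-/

set_option autoImplicit false

noncomputable section

open NumberField Filter Topology ComplexConjugate
open scoped Classical

namespace Fermat.Agent.DeligneSerre.SymmChebotarev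

variable {F : Type*} [Field F] [NumberField F]

lemma norm_nonneg_of_isTotallyComplex [IsTotallyComplex F] (x : F) : 0 ≤ Algebra.norm ℚ x := by
  have h : ((Algebra.norm ℚ x : ℚ) : ℂ) = ∏ φ : F →+* ℂ, φ x := by
    rw [← eq_ratCast (algebraMap ℚ ℂ), Algebra.norm_eq_prod_embeddings ℚ ℂ x]
    exact Fintype.prod_equiv (RingHom.equivRatAlgHom F ℂ).symm _ _ fun _ ↦ rfl
  rw [← Finset.prod_fiberwise Finset.univ InfinitePlace.mk] at h
  have hw : ∀ w : InfinitePlace F, ∏ φ ∈ {φ | InfinitePlace.mk φ = w}, φ x =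
      ((w x ^ 2 : ℝ) : ℂ) := by
    intro w
    have hne : w.embedding ≠ ComplexEmbedding.conjugate w.embedding := fun h0 ↦
      IsTotallyComplex.complexEmbedding_not_isReal w.embedding
        (ComplexEmbedding.isReal_iff.mpr h0.symm)
    have hset : ({φ | InfinitePlace.mk φ = w} : Finset (F →+* ℂ)) =
        {w.embedding, ComplexEmbedding.conjugate w.embedding} := by
      ext φ
      simp only [Finset.mem_filter, Finset.mem_univ, true_and, Finset.mem_insert,
        Finset.mem_singleton]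
      constructor
      · rintro rfl
        rcases InfinitePlace.mk_eq_iff.mp (InfinitePlace.mk_embedding (InfinitePlace.mk φ)) with h' | h'
        · exact Or.inl h'.symm
        · exact Or.inr h'.symm
      · rintro (rfl | rfl) <;> simp
    rw [hset, Finset.prod_pair hne, ComplexEmbedding.conjugate_coe_eq, Complex.mul_conj',
      InfinitePlace.norm_embedding_eq, Complex.ofReal_pow]
  simp only [hw, ← Complex.ofReal_prod] at h
  have h' : ((Algebra.norm ℚ x : ℚ) : ℝ) = ∏ w : InfinitePlace F, w x ^ 2 := by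
    exact_mod_cast h
  exact_mod_cast (h' ▸ Finset.prod_nonneg fun w _ ↦ sq_nonneg (w x) :
    (0 : ℝ) ≤ ((Algebra.norm ℚ x : ℚ) : ℝ))

lemma intNorm_nonneg_of_isTotallyComplex [IsTotallyComplex F] (x : 𝓞 F) :
    0 ≤ Algebra.norm ℤ x := by
  have h := norm_nonneg_of_isTotallyComplex (x : F)
  rw [← Algebra.coe_norm_int] at h
  exact_mod_cast h

/-- The L-series of `χ ∘ N` is bounded near `1` unless `χ ∘ N` is trivial. -/
theorem exists_bound_tsum_xterm [IsTotallyComplex F] {m : ℕ} (hm : 1 < m)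
    (χ : DirichletCharacter ℂ m)
    (hne : ∃ I : Ideal (𝓞 F), (Ideal.absNorm I).Coprime m ∧ χ (Ideal.absNorm I : ℕ) ≠ 1) :
    ∃ C : ℝ, ∀ᶠ s in 𝓝[>] (1 : ℝ),
      ‖∑' I : Ideal (𝓞 F), xterm (fun n : ℕ ↦ χ n) s I‖ ≤ C := by
  have : NeZero m := ⟨by omega⟩
  set 𝔪 : Ideal (𝓞 F) := Ideal.span {(m : 𝓞 F)} with h𝔪def
  have h𝔪 : 𝔪 ≠ ⊥ := by simpa [𝔪] using (NeZero.ne m)
  obtain ⟨C, hC⟩ := ClassField.exists_bound_tsum_rayChar 𝔪 h𝔪
    (fun I : Ideal (𝓞 F) ↦ χ ((Ideal.absNorm I : ℕ) : ZMod m))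
    (fun I J ↦ by simp [map_mul])
    (fun I hI ↦ χ.map_nonunit (by
      rwa [ZMod.isUnit_iff_coprime, ClassField.Recip.coprime_absNorm_iff_isCoprime]))
    (fun I hI ↦ by
      rw [← ClassField.Recip.coprime_absNorm_iff_isCoprime] at hI
      exact χ.unit_norm_eq_one (ZMod.unitOfCoprime _ hI))
    (fun x y hx hy hxy ↦ by
      have key : ∀ w : 𝓞 F, ((Ideal.absNorm (Ideal.span {w}) : ℕ) : ZMod m) =
          ((Algebra.norm ℤ w : ℤ) : ZMod m) := fun w ↦ by
        rw [Ideal.absNorm_span_singleton, ← Int.cast_natCast (R := ZMod m),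
          Int.natAbs_of_nonneg (intNorm_nonneg_of_isTotallyComplex w)]
      show χ _ = χ _
      rw [key, key, ClassField.Recip.norm_intCast_congr hxy])
    (by
      obtain ⟨I, hI, hI'⟩ := hne
      exact ⟨I, (ClassField.Recip.coprime_absNorm_iff_isCoprime I).mp hI, hI'⟩)
  refine ⟨C, ?_⟩
  filter_upwards [Ioc_mem_nhdsGT (show (1 : ℝ) < 2 by norm_num)] with s hs
  exact hC s hs

end Fermat.Agent.DeligneSerre.SymmChebotarev
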