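import Mathlib.NumberTheory.DirichletCharacter.Orthogonality
import Mathlib.NumberTheory.DirichletCharacter.Bounds
import Mathlib.Analysis.Complex.Polynomial.Basic
import Mathlib.RingTheory.RootsOfUnity.AlgebraicallyClosed
import Fermat.Agent.Density.GroupCount

/-!
# Crossing with a cyclotomic character

`G` is a finite group with classes `h ℓ` and an abelian quotient `π` with `π (h ℓ) = ℓ mod m`.
If `π` is injective on `⟨g⟩`, the fibre of `⟨g⟩` is cut out by Dirichlet characters: upper bounds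
for the real parts of the nontrivial prime sums and the asymptotic of the permutation characters
give the lower density of the classes of `g` and `g⁻¹`.
-/

set_option autoImplicit false

noncomputable section

open Filter Topology Asymptotics
open scoped Classical

namespace Fermat.Agent.DeligneSerre.SymmChebotarev

/-- `∑ f ℓ ℓ^{-s}` over the primes. -/
def primeSum (f : Nat.Primes → ℝ) (s : ℝ) : ℝ := ∑' ℓ : Nat.Primes, f ℓ * (ℓ : ℝ) ^ (-s)

lemma summable_primeSum {f : Nat.Primes → ℝ} {B : ℝ} (hf : ∀ ℓ, |f ℓ| ≤ B) {s : ℝ} (hs : 1 < s) :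
    Summable fun ℓ : Nat.Primes ↦ f ℓ * (ℓ : ℝ) ^ (-s) := by
  refine Summable.of_norm_bounded ((Nat.Primes.summable_rpow.mpr (neg_lt_neg hs)).mul_left B)
    fun ℓ ↦ ?_
  rw [Real.norm_eq_abs, abs_mul, abs_of_nonneg (show (0 : ℝ) ≤ (ℓ : ℝ) ^ (-s) by positivity)]
  exact mul_le_mul_of_nonneg_right (hf ℓ) (by positivity)

/-- Changing finitely many bounded terms costs `O(1)`. -/
lemma primeSum_sub_isBigO {f f' : Nat.Primes → ℝ} {B : ℝ} (hf : ∀ ℓ, |f ℓ| ≤ B)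
    (hf' : ∀ ℓ, |f' ℓ| ≤ B) (U : Finset Nat.Primes) (heq : ∀ ℓ ∉ U, f ℓ = f' ℓ) :
    (fun s ↦ primeSum f s - primeSum f' s) =O[𝓝[>] 1] fun _ ↦ (1 : ℝ) := by
  refine IsBigO.of_bound (∑ ℓ ∈ U, |f ℓ - f' ℓ|) ?_
  filter_upwards [self_mem_nhdsWithin] with s hs
  have hs1 : (1 : ℝ) < s := hs
  rw [norm_one, mul_one, Real.norm_eq_abs, primeSum, primeSum,
    ← (summable_primeSum hf hs1).tsum_sub (summable_primeSum hf' hs1),
    tsum_eq_sum (s := U) fun ℓ hℓ ↦ by rw [heq ℓ hℓ, sub_self]]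
  refine (Finset.abs_sum_le_sum_abs _ _).trans (Finset.sum_le_sum fun ℓ _ ↦ ?_)
  rw [← sub_mul, abs_mul, abs_of_nonneg (show (0 : ℝ) ≤ (ℓ : ℝ) ^ (-s) by positivity)]
  exact mul_le_of_le_one_right (abs_nonneg _)
    (Real.rpow_le_one_of_one_le_of_nonpos (by exact_mod_cast ℓ.2.one_le) (by linarith))

lemma primeSum_linearCombination {ι : Type*} (S : Finset ι) (k : ι → ℝ) (w : ι → Nat.Primes → ℝ)
    {B : ℝ} (hw : ∀ i ℓ, |w i ℓ| ≤ B) {s : ℝ} (hs : 1 < s) :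
    primeSum (fun ℓ ↦ ∑ i ∈ S, k i * w i ℓ) s = ∑ i ∈ S, k i * primeSum (w i) s := by
  simp only [primeSum, Finset.sum_mul, ← tsum_mul_left, ← mul_assoc]
  refine Summable.tsum_finsetSum fun i _ ↦ ?_
  simpa only [mul_assoc] using (summable_primeSum (hw i) hs).mul_left (k i)

section Orthogonality

variable {m : ℕ} [NeZero m]

lemma mulChar_inv_apply_unit (χ : DirichletCharacter ℂ m) (a : (ZMod m)ˣ) :
    χ ((a⁻¹ : (ZMod m)ˣ) : ZMod m) = (starRingEnd ℂ) (χ (a : ZMod m)) := by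
  rw [starRingEnd_apply, MulChar.star_apply', MulChar.inv_apply, Ring.inverse_unit]

/-- Orthogonality for the real parts of the characters. -/
lemma sum_re_mul_re (a : (ZMod m)ˣ) (b : ZMod m) :
    ∑ χ : DirichletCharacter ℂ m, 2 * ((χ a).re * (χ b).re) =
      (m.totient : ℝ) * ((if (a : ZMod m) = b then 1 else 0) +
        (if ((a⁻¹ : (ZMod m)ˣ) : ZMod m) = b then 1 else 0)) := by
  have h : ∀ u : (ZMod m)ˣ, (∑ χ : DirichletCharacter ℂ m,
      χ ((u⁻¹ : (ZMod m)ˣ) : ZMod m) * χ b).re =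
      (m.totient : ℝ) * (if (u : ZMod m) = b then 1 else 0) := fun u ↦ by
    have := DirichletCharacter.sum_char_inv_mul_char_eq ℂ u.isUnit b
    rw [ZMod.inv_coe_unit] at this
    rw [this]
    split_ifs <;> simp
  rw [mul_add, ← h a, ← h a⁻¹, inv_inv, ← Complex.add_re, ← Finset.sum_add_distrib,
    Complex.re_sum]
  refine Finset.sum_congr rfl fun χ _ ↦ ?_
  rw [mulChar_inv_apply_unit]
  simp [Complex.mul_re]
  ring

/-- The number of characters trivial at `a`, times the order of `a`, is `φ m`. -/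
lemma card_filter_apply_eq_one_mul_orderOf (a : (ZMod m)ˣ) :
    (Finset.univ.filter fun χ : DirichletCharacter ℂ m ↦ χ (a : ZMod m) = 1).card * orderOf a =
      m.totient := by
  have h1 : ∀ χ : DirichletCharacter ℂ m, ∑ j ∈ Finset.range (orderOf a), χ ((a : ZMod m) ^ j) =
      if χ (a : ZMod m) = 1 then (orderOf a : ℂ) else 0 := by
    intro χ
    simp only [map_pow]
    split_ifs with hχ
    · simp [hχ]
    · have hpow : χ (a : ZMod m) ^ orderOf a = 1 := by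
        rw [← map_pow, ← Units.val_pow_eq_pow_val, pow_orderOf_eq_one, Units.val_one, map_one]
      rw [geom_sum_eq hχ, hpow, sub_self, zero_div]
  have h2 : ∑ χ : DirichletCharacter ℂ m, ∑ j ∈ Finset.range (orderOf a), χ ((a : ZMod m) ^ j) =
      (m.totient : ℂ) := by
    rw [Finset.sum_comm]
    simp only [DirichletCharacter.sum_characters_eq ℂ]
    rw [Finset.sum_eq_single 0]
    · simp
    · intro j hj hj0
      rw [if_neg]
      rw [← Units.val_pow_eq_pow_val, Units.val_eq_one]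
      exact pow_ne_one_of_lt_orderOf hj0 (Finset.mem_range.mp hj)
    · intro h; exact absurd (Finset.mem_range.mpr (orderOf_pos a)) h
  simp only [h1, ← Finset.sum_filter, Finset.sum_const, nsmul_eq_mul] at h2
  exact_mod_cast h2

end Orthogonality

variable {G : Type*} [Group G] [Finite G] {m : ℕ} [NeZero m]

/-- The classes of `g` and `g⁻¹` have lower density `2`, counted with the weights
`#{a | a (h ℓ) a⁻¹ = g}`. -/
theorem exists_two_log_le_primeSum (h : Nat.Primes → G) (U : Finset Nat.Primes)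
    (cnt : Subgroup G → Nat.Primes → ℕ)
    (hcnt : ∀ H : Subgroup G, ∀ ℓ ∉ U,
      cnt H ℓ * Nat.card H = Nat.card {a : G // a * h ℓ * a⁻¹ ∈ H})
    (hasymp : ∀ H : Subgroup G, ∃ C : ℝ, ∀ᶠ s in 𝓝[>] (1 : ℝ),
      Summable (fun ℓ : Nat.Primes ↦ (cnt H ℓ : ℝ) * (ℓ : ℝ) ^ (-s)) ∧
      |(∑' ℓ : Nat.Primes, (cnt H ℓ : ℝ) * (ℓ : ℝ) ^ (-s)) - Real.log (1 / (s - 1))| ≤ C)
    (π : G →* (ZMod m)ˣ) (hπ : ∀ ℓ : Nat.Primes, ℓ ∉ U → ((π (h ℓ) : ZMod m)) = ((ℓ : ℕ) : ZMod m))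
    (g : G) (hg : orderOf (π g) = orderOf g)
    (hupper : ∀ χ : DirichletCharacter ℂ m,
      (∃ ℓ : Nat.Primes, cnt (Subgroup.zpowers g) ℓ ≠ 0 ∧ (ℓ : ℕ).Coprime m ∧
        χ ((ℓ : ℕ) : ZMod m) ≠ 1) →
      ∃ C : ℝ, ∀ᶠ s in 𝓝[>] (1 : ℝ), ∑' ℓ : Nat.Primes,
        (cnt (Subgroup.zpowers g) ℓ : ℝ) * ((χ ((ℓ : ℕ) : ZMod m)).re * (ℓ : ℝ) ^ (-s)) ≤ C) :
    ∃ C : ℝ, ∀ᶠ s in 𝓝[>] (1 : ℝ), 2 * Real.log (1 / (s - 1)) - C ≤
      primeSum (fun ℓ ↦ if ℓ ∈ U then 0 else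
        (Nat.card {a : G // a * h ℓ * a⁻¹ = g} : ℝ) +
          Nat.card {a : G // a * h ℓ * a⁻¹ = g⁻¹}) s := by
  set H := Subgroup.zpowers g with hHdef
  set t := orderOf g with htdef
  have ht : 0 < t := orderOf_pos g
  set φ : ℝ := (m.totient : ℝ) with hφdef
  have hφ : 0 < φ := by rw [hφdef]; exact_mod_cast Nat.totient_pos.mpr (NeZero.pos m)
  have ht' : (0 : ℝ) < t := by exact_mod_cast ht
  let L : ℝ → ℝ := fun s ↦ Real.log (1 / (s - 1))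
  set c : Nat.Primes → ℝ := fun ℓ ↦ (cnt H ℓ : ℝ) with hcdef
  let n : G → Nat.Primes → ℕ := fun x ℓ ↦ Nat.card {a : G // a * h ℓ * a⁻¹ = x}
  have hHcard : Nat.card H = t := by rw [hHdef, Nat.card_zpowers]
  have hinj : ∀ x ∈ H, ∀ y ∈ H, π x = π y → x = y := by
    intro x hx y hy hxy
    obtain ⟨i, rfl⟩ := Subgroup.mem_zpowers_iff.mp hx
    obtain ⟨j, rfl⟩ := Subgroup.mem_zpowers_iff.mp hy
    rw [map_zpow, map_zpow, zpow_eq_zpow_iff_modEq, hg] at hxy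
    exact zpow_eq_zpow_iff_modEq.mpr hxy
  have hconj : ∀ (a : G) (ℓ : Nat.Primes), π (a * h ℓ * a⁻¹) = π (h ℓ) := fun a ℓ ↦ by
    rw [map_mul, map_mul, map_inv, mul_comm (π a), mul_inv_cancel_right]
  -- the fibre of `⟨g⟩` is cut out by `π`
  have key : ∀ x ∈ H, ∀ ℓ ∉ U, (n x ℓ : ℝ) =
      (t : ℝ) * c ℓ * (if (π x : ZMod m) = ((ℓ : ℕ) : ZMod m) then 1 else 0) := by
    intro x hx ℓ hℓ
    split_ifs with hxℓ
    · rw [← hπ ℓ hℓ, Units.val_inj] at hxℓ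
      have e : Nat.card {a : G // a * h ℓ * a⁻¹ ∈ H} = n x ℓ :=
        Nat.card_congr (Equiv.subtypeEquivRight fun a ↦
          ⟨fun ha ↦ hinj _ ha _ hx (by rw [hconj, hxℓ]), fun ha ↦ ha ▸ hx⟩)
      rw [← e, ← hcnt H ℓ hℓ, hHcard]
      push_cast [hcdef]
      ring
    · rw [mul_zero, Nat.cast_eq_zero]
      refine Finite.card_eq_zero_iff.mpr ⟨fun a ↦ hxℓ ?_⟩
      rw [← hπ ℓ hℓ, ← hconj a.1 ℓ, a.2]
  -- the zero subgroup
  have hbot : ∀ ℓ ∉ U, (cnt ⊥ ℓ : ℝ) =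
      (t : ℝ) * c ℓ * (if ((ℓ : ℕ) : ZMod m) = 1 then 1 else 0) := by
    intro ℓ hℓ
    have h1 := hcnt ⊥ ℓ hℓ
    rw [Subgroup.card_bot, mul_one] at h1
    have h2 := key 1 (one_mem H) ℓ hℓ
    rw [map_one, Units.val_one] at h2
    have e : Nat.card {a : G // a * h ℓ * a⁻¹ ∈ (⊥ : Subgroup G)} = n 1 ℓ :=
      Nat.card_congr (Equiv.subtypeEquivRight fun a ↦ Subgroup.mem_bot)
    rw [h1, e, h2]
    simp only [eq_comm]
  -- bounds
  set B₀ : ℝ := (Nat.card G : ℝ) + ∑ ℓ ∈ U, (cnt H ℓ : ℝ) + ∑ ℓ ∈ U, (cnt ⊥ ℓ : ℝ) with hB₀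
  have hcard_le : ∀ p : G → Prop, (Nat.card {a : G // p a} : ℝ) ≤ Nat.card G := fun p ↦ by
    exact_mod_cast Finite.card_subtype_le p
  have hcntB : ∀ H' : Subgroup G, (H' = H ∨ H' = ⊥) → ∀ ℓ, (cnt H' ℓ : ℝ) ≤ B₀ := by
    intro H' hH' ℓ
    have hU0 : ∀ H'' : Subgroup G, 0 ≤ ∑ ℓ ∈ U, (cnt H'' ℓ : ℝ) :=
      fun H'' ↦ Finset.sum_nonneg fun i _ ↦ Nat.cast_nonneg _
    by_cases hℓ : ℓ ∈ U
    · have := Finset.single_le_sum (f := fun i ↦ (cnt H' i : ℝ))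
        (fun i _ ↦ Nat.cast_nonneg _) hℓ
      rcases hH' with rfl | rfl <;> linarith [hU0 H, hU0 ⊥, (Nat.card G).cast_nonneg (α := ℝ)]
    · have h1 := (le_of_mul_le_of_one_le_left (hcnt H' ℓ hℓ).le (Nat.card_pos (α := H'))
        ).trans (Finite.card_subtype_le _)
      have h1' : (cnt H' ℓ : ℝ) ≤ Nat.card G := by exact_mod_cast h1
      linarith [hU0 H, hU0 ⊥]
  have hc0 : ∀ ℓ, 0 ≤ c ℓ := fun ℓ ↦ Nat.cast_nonneg _
  have hB0' : 0 ≤ B₀ := (hc0 ⟨2, Nat.prime_two⟩).trans (hcntB H (Or.inl rfl) _)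
  let w : DirichletCharacter ℂ m → Nat.Primes → ℝ :=
    fun χ ℓ ↦ c ℓ * (χ ((ℓ : ℕ) : ZMod m)).re
  have hw : ∀ χ ℓ, |w χ ℓ| ≤ B₀ := fun χ ℓ ↦ by
    rw [abs_mul, abs_of_nonneg (hc0 ℓ)]
    exact (mul_le_of_le_one_right (hc0 ℓ) ((Complex.abs_re_le_norm _).trans (χ.norm_le_one _))).trans
      (hcntB H (Or.inl rfl) ℓ)
  have hlog : ∀ H' : Subgroup G,
      (fun s ↦ primeSum (fun ℓ ↦ (cnt H' ℓ : ℝ)) s - L s) =O[𝓝[>] 1] fun _ ↦ (1 : ℝ) := by
    intro H'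
    obtain ⟨C, hC⟩ := hasymp H'
    refine IsBigO.of_bound C (hC.mono fun s hs ↦ ?_)
    rw [norm_one, mul_one, Real.norm_eq_abs]
    exact hs.2
  -- the characters trivial at `g`
  set A := Finset.univ.filter fun χ : DirichletCharacter ℂ m ↦ χ (π g : ZMod m) = 1 with hAdef
  have hA : ∀ χ ∈ A, (fun s ↦ primeSum (w χ) s - L s) =O[𝓝[>] 1] fun _ ↦ (1 : ℝ) := by
    intro χ hχ
    have hχ' : χ (π g : ZMod m) = 1 := (Finset.mem_filter.mp hχ).2
    refine ((primeSum_sub_isBigO (hw χ) (f' := c)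
      (fun ℓ ↦ by rw [abs_of_nonneg (hc0 ℓ)]; exact hcntB H (Or.inl rfl) ℓ) U
      fun ℓ hℓ ↦ ?_).add (hlog H)).congr_left fun s ↦ by simp only [hcdef]; ring
    rcases eq_or_ne (cnt H ℓ) 0 with h0 | h0
    · simp [w, hcdef, h0]
    have hpos : Nat.card {a : G // a * h ℓ * a⁻¹ ∈ H} ≠ 0 := by
      rw [← hcnt H ℓ hℓ]; exact mul_ne_zero h0 Nat.card_pos.ne'
    obtain ⟨⟨a, ha⟩⟩ := (Nat.card_ne_zero.mp hpos).1
    obtain ⟨j, hj⟩ := (mem_powers_iff_mem_zpowers).mpr ha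
    have h1 : χ ((ℓ : ℕ) : ZMod m) = 1 := by
      rw [← hπ ℓ hℓ, ← hconj a ℓ, ← hj]
      simp [map_pow, hχ']
    simp [w, h1]
  -- the other characters
  have hB : ∀ χ ∈ Aᶜ, ∃ C : ℝ, ∀ᶠ s in 𝓝[>] (1 : ℝ), primeSum (w χ) s ≤ C := by
    intro χ hχ
    have hχ' : χ (π g : ZMod m) ≠ 1 := by simpa [hAdef] using hχ
    obtain ⟨ℓ, hℓ, a, ha⟩ :=
      Density.exists_conj_zpowers_eq_of_prime_sum h U cnt hcnt hasymp g
    have hmem : a * h ℓ * a⁻¹ ∈ H := by rw [hHdef, ← ha]; exact Subgroup.mem_zpowers _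
    have hne : cnt H ℓ ≠ 0 := by
      intro h0
      have := hcnt H ℓ hℓ
      rw [h0, zero_mul] at this
      exact (Nat.card_ne_zero.mpr ⟨⟨⟨a, hmem⟩⟩, inferInstance⟩) this.symm
    have hcop : (ℓ : ℕ).Coprime m :=
      (ZMod.isUnit_iff_coprime _ _).mp (hπ ℓ hℓ ▸ (π (h ℓ)).isUnit)
    have hval : χ ((ℓ : ℕ) : ZMod m) ≠ 1 := by
      intro h1
      obtain ⟨j, hj⟩ := (mem_powers_iff_mem_zpowers).mpr
        (ha.symm ▸ Subgroup.mem_zpowers g : g ∈ Subgroup.zpowers (a * h ℓ * a⁻¹))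
      refine hχ' ?_
      rw [← hj]
      simp only [map_pow, hconj, Units.val_pow_eq_pow_val, hπ ℓ hℓ, h1, one_pow]
    obtain ⟨C, hC⟩ := hupper χ ⟨ℓ, hne, hcop, hval⟩
    refine ⟨C, hC.mono fun s hs ↦ le_of_eq_of_le ?_ hs⟩
    simp only [primeSum, w, hcdef, mul_assoc]
  -- the sum over all characters
  have hsum : (fun s ↦ ∑ χ, primeSum (w χ) s - φ / t * L s) =O[𝓝[>] 1] fun _ ↦ (1 : ℝ) := by
    have h1 : (fun s ↦ primeSum (fun ℓ ↦ ∑ χ, (1 : ℝ) * w χ ℓ) s -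
        primeSum (fun ℓ ↦ φ / t * (cnt ⊥ ℓ : ℝ)) s) =O[𝓝[>] 1] fun _ ↦ (1 : ℝ) := by
      refine primeSum_sub_isBigO
        (B := (Fintype.card (DirichletCharacter ℂ m) : ℝ) * B₀ + φ / t * B₀)
        (fun ℓ ↦ ?_) (fun ℓ ↦ ?_) U fun ℓ hℓ ↦ ?_
      · refine (Finset.abs_sum_le_sum_abs _ _).trans ?_
        refine le_add_of_le_of_nonneg ?_ (by positivity)
        refine (Finset.sum_le_sum fun χ _ ↦ (?_ : |(1 : ℝ) * w χ ℓ| ≤ B₀)).trans (by simp)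
        rw [one_mul]; exact hw χ ℓ
      · rw [abs_of_nonneg (by positivity)]
        exact le_add_of_nonneg_of_le (by positivity)
          (mul_le_mul_of_nonneg_left (hcntB ⊥ (Or.inr rfl) ℓ) (by positivity))
      · simp only [one_mul, w, ← Finset.mul_sum, ← Complex.re_sum,
          DirichletCharacter.sum_characters_eq ℂ, hbot ℓ hℓ]
        split_ifs <;> simp [hφdef] <;> field_simp
    have h2 : (fun s ↦ primeSum (fun ℓ ↦ φ / t * (cnt ⊥ ℓ : ℝ)) s - φ / t * L s)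
        =O[𝓝[>] 1] fun _ ↦ (1 : ℝ) := by
      refine ((hlog ⊥).const_mul_left (φ / t)).congr_left fun s ↦ ?_
      simp only [primeSum, mul_assoc, tsum_mul_left, mul_sub]
    refine (h1.add h2).congr' ?_ Filter.EventuallyEq.rfl
    filter_upwards [self_mem_nhdsWithin] with s hs
    rw [primeSum_linearCombination Finset.univ (fun _ ↦ 1) w hw hs]
    simp
  -- the exact asymptotic of every character sum
  have hcardA : (A.card : ℝ) = φ / t := by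
    rw [eq_div_iff ht'.ne', hφdef, ← card_filter_apply_eq_one_mul_orderOf (π g), hg]
    push_cast
    rfl
  have hAll : ∀ χ, (fun s ↦ primeSum (w χ) s - (if χ ∈ A then L s else 0))
      =O[𝓝[>] 1] fun _ ↦ (1 : ℝ) := by
    intro χ
    by_cases hχ : χ ∈ A
    · simpa only [if_pos hχ] using hA χ hχ
    simp only [if_neg hχ, sub_zero]
    choose! Cu hCu using hB
    have hrest : (fun s ↦ ∑ ψ ∈ Aᶜ, primeSum (w ψ) s) =O[𝓝[>] 1] fun _ ↦ (1 : ℝ) := by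
      refine (hsum.sub (IsBigO.fun_sum hA)).congr_left fun s ↦ ?_
      rw [Finset.sum_sub_distrib, Finset.sum_const, nsmul_eq_mul, hcardA,
        ← Finset.sum_add_sum_compl A]
      ring
    obtain ⟨C₀, hC₀⟩ := hrest.bound
    refine IsBigO.of_bound (∑ ψ ∈ Aᶜ, |Cu ψ| + C₀) ?_
    filter_upwards [hC₀, (eventually_all_finset Aᶜ).mpr hCu] with s hs0 hsu
    rw [norm_one, mul_one, Real.norm_eq_abs] at hs0 ⊢
    have hmem : χ ∈ Aᶜ := Finset.mem_compl.mpr hχ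
    obtain ⟨h0l, -⟩ := abs_le.mp hs0
    rw [← Finset.add_sum_erase _ _ hmem] at h0l
    have hle : ∑ ψ ∈ Aᶜ.erase χ, primeSum (w ψ) s ≤ ∑ ψ ∈ Aᶜ.erase χ, |Cu ψ| :=
      Finset.sum_le_sum fun ψ hψ ↦ (hsu ψ (Finset.mem_of_mem_erase hψ)).trans (le_abs_self _)
    have hnn : 0 ≤ ∑ ψ ∈ Aᶜ.erase χ, |Cu ψ| := Finset.sum_nonneg fun ψ _ ↦ abs_nonneg _
    have hC0' : 0 ≤ C₀ := (abs_nonneg _).trans hs0
    have := le_abs_self (Cu χ)
    have := abs_nonneg (Cu χ)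
    have := hsu χ hmem
    rw [← Finset.add_sum_erase _ _ hmem, abs_le]
    constructor <;> linarith
  -- the classes of `g` and `g⁻¹`
  let k : DirichletCharacter ℂ m → ℝ := fun χ ↦ 2 * t / φ * (χ (π g : ZMod m)).re
  have hfin : (fun s ↦ primeSum (fun ℓ ↦ if ℓ ∈ U then 0 else (n g ℓ : ℝ) + n g⁻¹ ℓ) s -
      primeSum (fun ℓ ↦ ∑ χ, k χ * w χ ℓ) s) =O[𝓝[>] 1] fun _ ↦ (1 : ℝ) := by
    refine primeSum_sub_isBigO (B := 2 * (Nat.card G : ℝ) + ∑ χ, |k χ| * B₀)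
      (fun ℓ ↦ ?_) (fun ℓ ↦ ?_) U fun ℓ hℓ ↦ ?_
    · refine le_add_of_le_of_nonneg ?_ (Finset.sum_nonneg fun χ _ ↦ by positivity)
      split_ifs
      · simp
      · rw [abs_of_nonneg (by positivity), two_mul]
        exact add_le_add (hcard_le _) (hcard_le _)
    · refine le_add_of_nonneg_of_le (by positivity) ?_
      refine (Finset.abs_sum_le_sum_abs _ _).trans (Finset.sum_le_sum fun χ _ ↦ ?_)
      rw [abs_mul]
      exact mul_le_mul_of_nonneg_left (hw χ ℓ) (abs_nonneg _)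
    · rw [if_neg hℓ, key g (Subgroup.mem_zpowers g) ℓ hℓ,
        key g⁻¹ (inv_mem (Subgroup.mem_zpowers g)) ℓ hℓ, map_inv, ← mul_add]
      have ho := sum_re_mul_re (π g) ((ℓ : ℕ) : ZMod m)
      set I₁ : ℝ := if (π g : ZMod m) = ((ℓ : ℕ) : ZMod m) then 1 else 0
      set I₂ : ℝ := if (((π g)⁻¹ : (ZMod m)ˣ) : ZMod m) = ((ℓ : ℕ) : ZMod m) then 1 else 0
      rw [show (t : ℝ) * c ℓ * (I₁ + I₂) = t / φ * c ℓ * (φ * (I₁ + I₂)) by field_simp,
        hφdef, ← ho, Finset.mul_sum]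
      refine Finset.sum_congr rfl fun χ _ ↦ ?_
      simp only [k, w, hφdef]
      ring
  have hmain : (fun s ↦ primeSum (fun ℓ ↦ if ℓ ∈ U then 0 else (n g ℓ : ℝ) + n g⁻¹ ℓ) s -
      2 * L s) =O[𝓝[>] 1] fun _ ↦ (1 : ℝ) := by
    refine (hfin.add (IsBigO.fun_sum (s := Finset.univ)
      fun χ _ ↦ (hAll χ).const_mul_left (k χ))).congr' ?_ Filter.EventuallyEq.rfl
    filter_upwards [self_mem_nhdsWithin] with s hs
    rw [primeSum_linearCombination Finset.univ k w hw hs]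
    simp only [mul_sub, Finset.sum_sub_distrib, mul_ite, mul_zero, ← Finset.sum_filter,
      Finset.filter_mem_eq_inter, Finset.univ_inter]
    have hk : ∑ χ ∈ A, k χ * L s = 2 * L s := by
      have : ∀ χ ∈ A, k χ * L s = 2 * t / φ * L s := fun χ hχ ↦ by
        simp [k, (Finset.mem_filter.mp hχ).2]
      rw [Finset.sum_congr rfl this, Finset.sum_const, nsmul_eq_mul, hcardA]
      field_simp
    rw [hk]
    ring
  obtain ⟨C, hC⟩ := hmain.bound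
  refine ⟨C, hC.mono fun s hs ↦ ?_⟩
  rw [norm_one, mul_one, Real.norm_eq_abs] at hs
  linarith [(abs_le.mp hs).1]

end Fermat.Agent.DeligneSerre.SymmChebotarev
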