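import Mathlib.NumberTheory.PrimesCongruentOne
import Fermat.Agent.ClassField.Recip.Cyclo
import Fermat.Agent.EC.Det.CyclotomicChar
import Fermat.Agent.Density.Splitting
import Fermat.Agent.DeligneSerre.SymmChebotarev.CharLSeries
import Fermat.Agent.DeligneSerre.SymmChebotarev.Crossing

/-!
# Chebotarev's theorem up to inversion, as a lower bound for the density

If every prime whose Frobenius has image in a symmetric union of classes `A` of a finite quotient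
`G` of `Γ_ℚ` lies in a set of density at most `η`, then `A` has at most `η |G|` elements. The proof
crosses with the cyclotomic character modulo a prime `m ≡ 1` modulo a high power of `2 |G|`.
-/

set_option autoImplicit false

noncomputable section

open Filter Topology NumberField
open scoped Classical

namespace Fermat.Agent.DeligneSerre.SymmChebotarev

local notation "ℚ̄" => AlgebraicClosure ℚ
local notation "Γℚ" => (AlgebraicClosure ℚ ≃ₐ[ℚ] AlgebraicClosure ℚ)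

-- `Algebra ℚ ℚ̄` elaborates to `DivisionRing.toRatAlgebra`, so restate the instances for it
local instance : Algebra.IsAlgebraic ℚ ℚ̄ := AlgebraicClosure.isAlgebraic ℚ

local instance : IsAlgClosure ℚ ℚ̄ := ⟨inferInstance, inferInstance⟩

local instance : Normal ℚ ℚ̄ := IsAlgClosure.normal ℚ ℚ̄

/-- In a cyclic group whose order is divisible by a high power of `N`, most orders are multiples
of `N`. -/
lemma card_filter_not_dvd_orderOf_le {X : Type*} [CommGroup X] [Fintype X] [IsCyclic X]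
    {N k : ℕ} (hN : N ≠ 0) (h : N ^ (k + 1) ∣ Fintype.card X) :
    (Finset.univ.filter fun a : X ↦ ¬ N ∣ orderOf a).card * 2 ^ (k + 1) ≤
      N * Fintype.card X := by
  set M' := Fintype.card X with hM'def
  have hM' : 0 < M' := Fintype.card_pos
  have hsub : (Finset.univ.filter fun a : X ↦ ¬ N ∣ orderOf a) ⊆ N.primeFactors.biUnion
      fun q ↦ Finset.univ.filter fun a : X ↦ a ^ (M' / q ^ (k + 1)) = 1 := by
    intro a ha
    simp only [Finset.mem_filter, Finset.mem_univ, true_and] at ha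
    rw [Nat.dvd_iff_prime_pow_dvd_dvd] at ha
    push Not at ha
    obtain ⟨q, v, hq, hqN, hqa⟩ := ha
    have hv : v ≠ 0 := by rintro rfl; simp at hqa
    refine Finset.mem_biUnion.mpr ⟨q, Nat.mem_primeFactors.mpr
      ⟨hq, (dvd_pow_self q hv).trans hqN, hN⟩, Finset.mem_filter.mpr ⟨Finset.mem_univ _, ?_⟩⟩
    obtain ⟨i, d', hd', he⟩ := Nat.exists_eq_pow_mul_and_not_dvd (orderOf_pos a).ne' q hq.ne_one
    have hiv : i < v := by
      by_contra hc
      exact hqa (he ▸ dvd_mul_of_dvd_left (pow_dvd_pow q (not_lt.mp hc)) d')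
    have hcop : (q ^ ((k + 1) * v)).Coprime d' :=
      Nat.Coprime.pow_left _ (hq.coprime_iff_not_dvd.mpr hd')
    have h1 : q ^ ((k + 1) * v) * d' ∣ M' := by
      refine hcop.mul_dvd_of_dvd_of_dvd ?_ ?_
      · exact (by rw [mul_comm, pow_mul]; exact pow_dvd_pow_of_dvd hqN _ :
          q ^ ((k + 1) * v) ∣ N ^ (k + 1)).trans h
      · exact (Dvd.intro_left _ he.symm).trans orderOf_dvd_card
    have h2 : orderOf a * q ^ (k + 1) ∣ M' := by
      refine dvd_trans ?_ h1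
      rw [he, mul_right_comm, ← pow_add]
      refine mul_dvd_mul_right (pow_dvd_pow q ?_) d'
      nlinarith
    exact orderOf_dvd_iff_pow_eq_one.mp (Nat.dvd_div_of_mul_dvd (by rwa [mul_comm]))
  refine (Nat.mul_le_mul_right _ (Finset.card_le_card hsub)).trans ?_
  refine (Nat.mul_le_mul_right _ Finset.card_biUnion_le).trans ?_
  rw [Finset.sum_mul]
  have hterm : ∀ q ∈ N.primeFactors,
      (Finset.univ.filter fun a : X ↦ a ^ (M' / q ^ (k + 1)) = 1).card * 2 ^ (k + 1) ≤ M' := by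
    intro q hq
    obtain ⟨hq, hqN, -⟩ := Nat.mem_primeFactors.mp hq
    have hdvd : q ^ (k + 1) ∣ M' := (pow_dvd_pow_of_dvd hqN _).trans h
    have hpos : 0 < M' / q ^ (k + 1) :=
      Nat.div_pos (Nat.le_of_dvd hM' hdvd) (pow_pos hq.pos _)
    exact (Nat.mul_le_mul (IsCyclic.card_pow_eq_one_le hpos)
      (Nat.pow_le_pow_left hq.two_le _)).trans (Nat.div_mul_cancel hdvd).le
  refine (Finset.sum_le_card_nsmul _ _ M' hterm).trans ?_
  rw [smul_eq_mul]
  refine Nat.mul_le_mul_right _ ((Finset.card_le_card fun q hq ↦ ?_).trans (Nat.card_Icc 1 N).le)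
  exact Finset.mem_Icc.mpr ⟨(Nat.prime_of_mem_primeFactors hq).one_le,
    Nat.le_of_mem_primeFactors hq⟩

/-- `Γ_ℚ → Gal(K/ℚ) × (ℤ/m)ˣ` is surjective if `m` is prime to the discriminant. -/
lemma exists_restrictNormalHom_eq_and_cycloChar_eq (K : IntermediateField ℚ ℚ̄)
    [FiniteDimensional ℚ K] [Normal ℚ K] {m : ℕ} [NeZero m]
    (hm : (discr K).natAbs.Coprime m) (x : K ≃ₐ[ℚ] K) (u : (ZMod m)ˣ) :
    ∃ σ : Γℚ, AlgEquiv.restrictNormalHom K σ = x ∧ EC.cycloChar m σ = u := by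
  haveI : IsGalois ℚ K := ⟨⟩
  obtain ⟨ζ, hζ⟩ := EC.exists_primitiveRoot_qbar m
  let M : IntermediateField K ℚ̄ := IntermediateField.adjoin K {ζ}
  haveI : FiniteDimensional K M :=
    IntermediateField.adjoin.finiteDimensional (hζ.isIntegral (NeZero.pos m)).tower_top
  haveI : FiniteDimensional ℚ M := FiniteDimensional.trans ℚ K M
  haveI : NumberField M := ⟨⟩
  let z : M := IntermediateField.AdjoinSimple.gen K ζ
  have hz : IsPrimitiveRoot z m := IsPrimitiveRoot.of_map_of_injective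
    (f := algebraMap M ℚ̄) (by simpa [z] using hζ) (algebraMap M ℚ̄).injective
  have hgen : IntermediateField.adjoin K {z} = ⊤ := by
    apply IntermediateField.lift_injective M
    rw [IntermediateField.lift_adjoin, IntermediateField.lift_top, Set.image_singleton]
    rfl
  haveI : IsGalois ℚ M := ClassField.Recip.isGalois_of_adjoin_eq_top ℚ K M hz hgen
  obtain ⟨g, hg₁, hg₂⟩ :=
    ClassField.Recip.exists_restrictNormal_eq_and_autToPow_eq ℚ K M hz hgen hm x u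
  refine ⟨g.liftNormal ℚ̄, ?_, ?_⟩
  · apply AlgEquiv.ext
    intro y
    apply (algebraMap K ℚ̄).injective
    have e1 := AlgEquiv.restrictNormal_commutes (g.liftNormal ℚ̄) K y
    have e2 := g.liftNormal_commutes ℚ̄ (algebraMap K M y)
    rw [← IsScalarTower.algebraMap_apply, ← AlgEquiv.restrictNormal_commutes g K y, hg₁,
      ← IsScalarTower.algebraMap_apply] at e2
    exact e1.trans e2
  · apply Units.ext
    have h1 := hz.autToPow_spec ℚ g
    rw [hg₂] at h1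
    have h2 : g.liftNormal ℚ̄ ζ = ζ ^ (u : ZMod m).val := by
      have := g.liftNormal_commutes ℚ̄ z
      rw [← h1, map_pow] at this
      simpa [z] using this
    rw [EC.cycloChar_eq_of_apply_eq_pow m _ hζ h2, ZMod.natCast_zmod_val]

/-- A fixed field of a subgroup without an involution moving `i` has no real place. -/
lemma isTotallyComplex_fixedField (M : IntermediateField ℚ ℚ̄) [FiniteDimensional ℚ M]
    [Normal ℚ M] (H : Subgroup (M ≃ₐ[ℚ] M)) (i : M) (hi : i ^ 2 = -1)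
    (hH : ∀ c ∈ H, c * c = 1 → c i = i) :
    IsTotallyComplex (IntermediateField.fixedField H) := by
  haveI : IsGalois ℚ M := ⟨⟩
  set F := IntermediateField.fixedField H with hFdef
  refine ⟨fun v ↦ ?_⟩
  rw [← InfinitePlace.not_isReal_iff_isComplex, InfinitePlace.isReal_iff]
  intro hv'
  haveI : Algebra.IsAlgebraic F M := Algebra.IsAlgebraic.of_finite F M
  let ψ : M →+* ℂ := ComplexEmbedding.lift M v.embedding
  have hψ : ψ.comp (algebraMap F M) = v.embedding :=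
    ComplexEmbedding.lift_comp_algebraMap M v.embedding
  have hconj : ((starRingEnd ℂ).comp ψ).comp (algebraMap F M) = v.embedding := by
    rw [RingHom.comp_assoc, hψ]
    exact ComplexEmbedding.isReal_iff.mp hv'
  obtain ⟨σ, hσ⟩ := ComplexEmbedding.exists_comp_symm_eq_of_comp_eq (k := F) ψ
    ((starRingEnd ℂ).comp ψ) (hψ.trans hconj.symm)
  have happ : ∀ x : M, ψ (σ.symm x) = starRingEnd ℂ (ψ x) := fun x ↦ RingHom.congr_fun hσ x
  set c : M ≃ₐ[ℚ] M := σ.symm.restrictScalars ℚ with hcdef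
  have hc : c ∈ H := by
    rw [← IntermediateField.fixingSubgroup_fixedField H, IntermediateField.mem_fixingSubgroup_iff]
    exact fun x hx ↦ σ.symm.commutes ⟨x, hx⟩
  have hcc : c * c = 1 := AlgEquiv.ext fun x ↦ ψ.injective (by
    rw [AlgEquiv.mul_apply, AlgEquiv.one_apply]
    change ψ (σ.symm (σ.symm x)) = ψ x
    rw [happ, happ, Complex.conj_conj])
  have h1 : starRingEnd ℂ (ψ i) = ψ i := by
    rw [← happ]
    exact congrArg ψ (hH c hc hcc)
  have h2 : ψ i ^ 2 = -1 := by rw [← map_pow, hi, map_neg, map_one]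
  obtain ⟨r, hr⟩ := Complex.conj_eq_iff_real.mp h1
  rw [hr, ← Complex.ofReal_pow, ← Complex.ofReal_one, ← Complex.ofReal_neg,
    Complex.ofReal_inj] at h2
  nlinarith [sq_nonneg r]

private lemma restrictNormalHom_eq_one_iff (F : IntermediateField ℚ ℚ̄) [Normal ℚ F] (σ : Γℚ) :
    AlgEquiv.restrictNormalHom F σ = 1 ↔ ∀ x ∈ F, σ x = x := by
  refine ⟨fun h x hx ↦ ?_, fun h ↦ AlgEquiv.ext fun x ↦ Subtype.ext ?_⟩
  · exact (AlgEquiv.restrictNormal_commutes σ F ⟨x, hx⟩).symm.trans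
      (congrArg (fun g : F ≃ₐ[ℚ] F ↦ ((g ⟨x, hx⟩ : F) : ℚ̄)) h)
  · exact (AlgEquiv.restrictNormal_commutes σ F x).trans (h x x.2)

set_option maxHeartbeats 1000000 in
/-- Crossing with the characters modulo `m`: the count for one modulus. -/
lemma card_mul_card_le (K : IntermediateField ℚ ℚ̄) [FiniteDimensional ℚ K] [Normal ℚ K]
    (hK : ∃ i ∈ K, i ^ 2 = -1) {m : ℕ} [Fact m.Prime] (hcop : (discr K).natAbs.Coprime m)
    {G : Type*} [Group G] (r : (K ≃ₐ[ℚ] K) →* G) (A : Set G)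
    (hAconj : ∀ x ∈ A, ∀ a : G, a * x * a⁻¹ ∈ A) (hAinv : ∀ x ∈ A, x⁻¹ ∈ A) (X : Set ℕ)
    (S : Finset ℕ)
    (hAX : ∀ ℓ : ℕ, ℓ.Prime → ℓ ∉ S → ∀ (P : ValuationSubring ℚ̄) (σ : Γℚ), P.LiesOverPrime ℓ →
      P.IsFrobeniusAt σ ℓ → r (AlgEquiv.restrictNormalHom K σ) ∈ A → ℓ ∈ X)
    {η C : ℝ} (hX : ∀ s : ℝ, 1 < s → s ≤ 2 → ∀ T : Finset ℕ, (∀ p ∈ T, p.Prime ∧ p ∈ X) →
      ∑ p ∈ T, (p : ℝ) ^ (-s) ≤ η * Real.log (1 / (s - 1)) + C) :
    ((Finset.univ.filter fun x : K ≃ₐ[ℚ] K ↦ r x ∈ A).card : ℝ) *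
        (Finset.univ.filter fun a : (ZMod m)ˣ ↦ 2 * Nat.card (K ≃ₐ[ℚ] K) ∣ orderOf a).card ≤
      (Nat.card (K ≃ₐ[ℚ] K) : ℝ) * Fintype.card (ZMod m)ˣ * η := by
  obtain ⟨i, hiK, hi⟩ := hK
  have hmp : m.Prime := Fact.out
  set GK := Nat.card (K ≃ₐ[ℚ] K) with hGKdef
  set N2 := 2 * GK with hN2def
  set Tg := Finset.univ.filter fun a : (ZMod m)ˣ ↦ N2 ∣ orderOf a with hTgdef
  set resK : Γℚ →* (K ≃ₐ[ℚ] K) := AlgEquiv.restrictNormalHom K with hresKdef
  -- the field `M = K(ζ_m)` and `Gal(M/ℚ) ≃ Gal(K/ℚ) × (ℤ/m)ˣ`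
  obtain ⟨ζ, hζ⟩ := EC.exists_primitiveRoot_qbar m
  let Z : IntermediateField ℚ ℚ̄ := IntermediateField.adjoin ℚ {ζ}
  haveI : FiniteDimensional ℚ Z :=
    IntermediateField.adjoin.finiteDimensional (Algebra.IsIntegral.isIntegral ζ)
  haveI : IsCyclotomicExtension {m} ℚ Z := by
    convert! hζ.intermediateField_adjoin_isCyclotomicExtension ℚ
  haveI : Normal ℚ Z := (IsCyclotomicExtension.isGalois {m} ℚ Z).to_normal
  let M : IntermediateField ℚ ℚ̄ := K ⊔ Z
  haveI : Normal ℚ M := @IntermediateField.normal_sup ℚ ℚ̄ _ _ _ K Z (by assumption) (by assumption)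
  haveI : FiniteDimensional ℚ M := IntermediateField.finiteDimensional_sup K Z
  set resM : Γℚ →* (M ≃ₐ[ℚ] M) := AlgEquiv.restrictNormalHom M with hresMdef
  have hresM : Function.Surjective resM := AlgEquiv.restrictNormalHom_surjective (K₁ := M) ℚ̄
  let pair : (M ≃ₐ[ℚ] M) →* (K ≃ₐ[ℚ] K) × (ZMod m)ˣ := MonoidHom.liftOfSurjective resM hresM
    ⟨resK.prod (EC.cycloChar m), fun σ hσ ↦ by
      have hM := (restrictNormalHom_eq_one_iff M σ).mp hσ
      refine Prod.ext ((restrictNormalHom_eq_one_iff K σ).mpr fun x hx ↦ hM x ((le_sup_left : K ≤ M) hx)) (Units.ext ?_)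
      simpa using EC.cycloChar_eq_of_apply_eq_pow m σ hζ (j := 1)
        (by rw [pow_one]; exact hM ζ ((le_sup_right : Z ≤ M)
          (IntermediateField.mem_adjoin_simple_self ℚ ζ)))⟩
  have hpair : ∀ σ, pair (resM σ) = (resK σ, EC.cycloChar m σ) := fun σ ↦
    MonoidHom.liftOfRightInverse_comp_apply resM _ _ ⟨_, _⟩ σ
  have hpinj : Function.Injective pair := by
    rw [injective_iff_map_eq_one]
    intro x hx
    obtain ⟨σ, rfl⟩ := hresM x
    rw [hpair, Prod.mk_eq_one] at hx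
    refine (restrictNormalHom_eq_one_iff M σ).mpr ?_
    have hζσ : σ ζ = ζ := by
      rw [EC.apply_eq_pow_cycloChar m σ hζ.pow_eq_one, hx.2, Units.val_one,
        ZMod.val_one m, pow_one]
    have hle : M ≤ IntermediateField.fixedField (Subgroup.zpowers σ) := by
      refine sup_le (fun y hy ↦ ?_) (IntermediateField.adjoin_le_iff.mpr fun y hy ↦ ?_)
      all_goals
        simp only [SetLike.mem_coe, IntermediateField.mem_fixedField_iff]
        intro f hf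
        obtain ⟨j, rfl⟩ := Subgroup.mem_zpowers_iff.mp hf
        refine MulAction.mem_stabilizer_iff.mp ((MulAction.stabilizer Γℚ y).zpow_mem (x := σ) ?_ j)
      · exact (restrictNormalHom_eq_one_iff K σ).mp hx.1 y hy
      · rw [Set.mem_singleton_iff] at hy
        subst hy
        exact hζσ
    exact fun y hy ↦ (IntermediateField.mem_fixedField_iff _ y).mp (hle hy) σ
      (Subgroup.mem_zpowers σ)
  have hpsurj : Function.Surjective pair := fun ⟨x, u⟩ ↦ by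
    obtain ⟨σ, h1, h2⟩ := exists_restrictNormalHom_eq_and_cycloChar_eq K hcop x u
    exact ⟨resM σ, by rw [hpair, hresKdef, h1, h2]⟩
  let e : (M ≃ₐ[ℚ] M) ≃* (K ≃ₐ[ℚ] K) × (ZMod m)ˣ :=
    MulEquiv.ofBijective pair ⟨hpinj, hpsurj⟩
  have he : ∀ g, e g = pair g := fun g ↦ rfl
  -- the Frobenius classes
  obtain ⟨S₀, hS₀⟩ := Density.exists_splitting_frobenius M
  choose P σℓ hP hσℓ _hin hcount using
    fun ℓ : {ℓ : ℕ // ℓ.Prime ∧ ℓ ∉ S₀} ↦ hS₀ ℓ.1 ℓ.2.1 ℓ.2.2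
  let h : Nat.Primes → (M ≃ₐ[ℚ] M) := fun ℓ ↦
    if hℓ : (ℓ : ℕ) ∈ S₀ then 1 else resM (σℓ ⟨ℓ, ℓ.2, hℓ⟩)
  let U : Finset Nat.Primes := (S ∪ S₀ ∪ {m}).subtype Nat.Prime
  have hU : ∀ ℓ : Nat.Primes, ℓ ∉ U → (ℓ : ℕ) ∉ S ∧ (ℓ : ℕ) ∉ S₀ ∧ (ℓ : ℕ) ≠ m := by
    intro ℓ hℓ
    have h' : (ℓ : ℕ) ∉ S ∪ S₀ ∪ {m} := fun h ↦ hℓ (Finset.mem_subtype.mpr h)
    simp only [Finset.mem_union, Finset.mem_singleton, not_or] at h'
    exact ⟨h'.1.1, h'.1.2, h'.2⟩
  let cnt : Subgroup (M ≃ₐ[ℚ] M) → Nat.Primes → ℕ :=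
    fun H ℓ ↦ Density.idealCount (IntermediateField.fixedField H) ℓ
  let π : (M ≃ₐ[ℚ] M) →* (ZMod m)ˣ := (MonoidHom.snd _ _).comp pair
  have hπ : ∀ ℓ : Nat.Primes, ℓ ∉ U → ((π (h ℓ) : ZMod m)) = ((ℓ : ℕ) : ZMod m) := by
    intro ℓ hℓ
    obtain ⟨-, hℓ₀, hℓm⟩ := hU ℓ hℓ
    simp only [h, dif_neg hℓ₀, π, MonoidHom.coe_comp, Function.comp_apply, hpair,
      MonoidHom.coe_snd]
    exact EC.cycloChar_eq_of_isFrobeniusAt ℓ.2
      (fun hd ↦ hℓm ((Nat.prime_dvd_prime_iff_eq ℓ.2 hmp).mp hd)) (hP _) (hσℓ _)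
  set B := Finset.univ.filter fun x : K ≃ₐ[ℚ] K ↦ r x ∈ A with hBdef
  set I := (B ×ˢ Tg).map e.symm.toEquiv.toEmbedding with hIdef
  -- lower bound for each class
  have hone : ∀ g ∈ I, ∃ C₁ : ℝ, ∀ᶠ s in 𝓝[>] (1 : ℝ), 2 * Real.log (1 / (s - 1)) - C₁ ≤
      primeSum (fun ℓ ↦ if ℓ ∈ U then 0 else
        (Nat.card {a : M ≃ₐ[ℚ] M // a * h ℓ * a⁻¹ = g} : ℝ) +
          Nat.card {a : M ≃ₐ[ℚ] M // a * h ℓ * a⁻¹ = g⁻¹}) s := by
    intro g hg
    obtain ⟨⟨x, τ⟩, hxτ, rfl⟩ := Finset.mem_map.mp hg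
    obtain ⟨-, hτ⟩ := Finset.mem_product.mp hxτ
    rw [show e.symm.toEquiv.toEmbedding (x, τ) = e.symm (x, τ) from rfl]
    have hτ' : N2 ∣ orderOf τ := (Finset.mem_filter.mp hτ).2
    have hx : orderOf x ∣ GK := orderOf_dvd_natCard x
    have hord : orderOf (e.symm (x, τ)) = orderOf τ := by
      rw [MulEquiv.orderOf_eq, Prod.orderOf]
      exact Nat.lcm_eq_right (hx.trans ((dvd_mul_left GK 2).trans hτ'))
    have hπg : π (e.symm (x, τ)) = τ := by
      simp only [π, MonoidHom.coe_comp, Function.comp_apply, ← he, MulEquiv.apply_symm_apply,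
        MonoidHom.coe_snd]
    have hiM : i ∈ M := (le_sup_left : K ≤ M) hiK
    haveI : IsTotallyComplex
        (IntermediateField.fixedField (Subgroup.zpowers (e.symm (x, τ)))) := by
      refine isTotallyComplex_fixedField M _ ⟨i, hiM⟩ (Subtype.ext (by simpa using hi)) ?_
      intro c hc hcc
      obtain ⟨j, rfl⟩ := (mem_powers_iff_mem_zpowers).mpr hc
      simp only [← pow_add, ← orderOf_dvd_iff_pow_eq_one, hord] at hcc
      have hj : GK ∣ j := by
        have : 2 * GK ∣ 2 * j := by rw [two_mul j]; exact hτ'.trans hcc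
        exact (Nat.mul_dvd_mul_iff_left two_pos).mp this
      have hxj : x ^ j = 1 := orderOf_dvd_iff_pow_eq_one.mp (hx.trans hj)
      obtain ⟨σ, hσ⟩ := hresM (e.symm (x, τ) ^ j)
      have hK : resK σ = 1 := by
        have := congrArg pair hσ
        rw [hpair, map_pow, ← he, MulEquiv.apply_symm_apply, Prod.pow_mk] at this
        exact (congrArg Prod.fst this).trans hxj
      apply Subtype.ext
      change (((e.symm (x, τ) ^ j : M ≃ₐ[ℚ] M) ⟨i, hiM⟩ : M) : ℚ̄) = i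
      rw [← hσ]
      refine (AlgEquiv.restrictNormal_commutes σ M ⟨i, hiM⟩).trans ?_
      exact (restrictNormalHom_eq_one_iff K σ).mp hK i hiK
    refine exists_two_log_le_primeSum h U cnt (fun H ℓ hℓ ↦ ?_)
      (fun H ↦ Density.exists_abs_tsum_idealCount_sub_log_le _) π hπ _
      (by rw [hπg, hord]) fun χ hχ ↦ ?_
    · simp only [cnt, h, dif_neg (hU ℓ hℓ).2.1]
      exact hcount ⟨ℓ, ℓ.2, (hU ℓ hℓ).2.1⟩ H
    · refine exists_re_tsum_idealCount_le (ψ := fun n : ℕ ↦ χ (n : ZMod m))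
        (fun a b ↦ by simp) (by simp) (fun n ↦ χ.norm_le_one _)
        (exists_bound_tsum_xterm hmp.one_lt χ ?_)
      obtain ⟨ℓ, hne, hℓcop, hℓ1⟩ := hχ
      obtain ⟨⟨J, hJ⟩⟩ := (Nat.card_ne_zero.mp hne).1
      exact ⟨J, by rw [hJ]; exact hℓcop, by rw [hJ]; exact hℓ1⟩
  choose! C₁ hC₁ using hone
  -- upper bound for all the classes together
  set w : Nat.Primes → ℝ := fun ℓ ↦ ∑ g ∈ I, (1 : ℝ) * (if ℓ ∈ U then 0 else
    (Nat.card {a : M ≃ₐ[ℚ] M // a * h ℓ * a⁻¹ = g} : ℝ) +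
      Nat.card {a : M ≃ₐ[ℚ] M // a * h ℓ * a⁻¹ = g⁻¹}) with hwdef
  have hsumle : ∀ (f : (M ≃ₐ[ℚ] M) → (M ≃ₐ[ℚ] M)), Function.Injective f → ∀ x : M ≃ₐ[ℚ] M,
      ∑ g ∈ I, (Nat.card {a : M ≃ₐ[ℚ] M // a * x * a⁻¹ = f g} : ℝ) ≤ Nat.card (M ≃ₐ[ℚ] M) := by
    intro f hf x
    simp only [Nat.card_eq_fintype_card, Fintype.card_subtype]
    rw [← Nat.cast_sum, Nat.cast_le, ← Finset.card_biUnion]
    · exact Finset.card_le_univ _
    · intro g _ g' _ hne
      simp only [Finset.disjoint_left, Finset.mem_filter, Finset.mem_univ, true_and]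
      intro a ha ha'
      exact hne (hf (ha ▸ ha'))
  have hw : ∀ ℓ : Nat.Primes, w ℓ ≤
      2 * (Nat.card (M ≃ₐ[ℚ] M) : ℝ) * if (ℓ : ℕ) ∈ X then 1 else 0 := by
    intro ℓ
    simp only [hwdef, one_mul]
    by_cases hℓU : ℓ ∈ U
    · simp only [if_pos hℓU, Finset.sum_const_zero]
      split_ifs <;> positivity
    simp only [if_neg hℓU, Finset.sum_add_distrib]
    obtain ⟨hℓS, hℓ₀, -⟩ := hU ℓ hℓU
    by_cases hℓX : (ℓ : ℕ) ∈ X
    · rw [if_pos hℓX, mul_one, two_mul]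
      exact add_le_add (hsumle id Function.injective_id _) (hsumle _ inv_injective _)
    rw [if_neg hℓX, mul_zero]
    have hzero : ∀ g ∈ I, ∀ g', (g' = g ∨ g' = g⁻¹) →
        Nat.card {a : M ≃ₐ[ℚ] M // a * h ℓ * a⁻¹ = g'} = 0 := by
      intro g hg g' hg'
      refine Finite.card_eq_zero_iff.mpr ⟨fun ⟨a, ha⟩ ↦ hℓX ?_⟩
      obtain ⟨⟨x, τ⟩, hxτ, rfl⟩ := Finset.mem_map.mp hg
      have hx : r x ∈ A := (Finset.mem_filter.mp (Finset.mem_product.mp hxτ).1).2
      have hg'A : r (pair g').1 ∈ A := by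
        rcases hg' with rfl | rfl
        · simpa [← he] using hx
        · simpa [← he] using hAinv _ hx
      rw [← ha] at hg'A
      refine hAX ℓ ℓ.2 hℓS (P ⟨ℓ, ℓ.2, hℓ₀⟩) (σℓ ⟨ℓ, ℓ.2, hℓ₀⟩) (hP _) (hσℓ _) ?_
      simp only [h, dif_neg hℓ₀, map_mul, map_inv, Prod.fst_mul, Prod.fst_inv, hpair, ] at hg'A
      have := hAconj _ hg'A (r (pair a).1)⁻¹
      simpa [mul_assoc] using this
    rw [Finset.sum_eq_zero fun g hg ↦ by rw [hzero g hg g (Or.inl rfl), Nat.cast_zero],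
      Finset.sum_eq_zero fun g hg ↦ by rw [hzero g hg g⁻¹ (Or.inr rfl), Nat.cast_zero], add_zero]
  have hbound : ∀ (g : M ≃ₐ[ℚ] M) (ℓ : Nat.Primes), |(if ℓ ∈ U then 0 else
      (Nat.card {a : M ≃ₐ[ℚ] M // a * h ℓ * a⁻¹ = g} : ℝ) +
        Nat.card {a : M ≃ₐ[ℚ] M // a * h ℓ * a⁻¹ = g⁻¹})| ≤ 2 * Nat.card (M ≃ₐ[ℚ] M) := by
    intro g ℓ
    split_ifs
    · simp
    · rw [abs_of_nonneg (by positivity), two_mul]
      exact add_le_add (by exact_mod_cast Finite.card_subtype_le _)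
        (by exact_mod_cast Finite.card_subtype_le _)
  have hev : ∀ᶠ s in 𝓝[>] (1 : ℝ), ((I.card : ℝ) * 2 - 2 * Nat.card (M ≃ₐ[ℚ] M) * η) *
      Real.log (1 / (s - 1)) ≤ ∑ g ∈ I, C₁ g + 2 * Nat.card (M ≃ₐ[ℚ] M) * C := by
    filter_upwards [(eventually_all_finset I).mpr hC₁,
      Ioc_mem_nhdsGT (show (1 : ℝ) < 2 by norm_num)] with s hs hs'
    have hlow := Finset.sum_le_sum hs
    have hlin := primeSum_linearCombination I (fun _ ↦ (1 : ℝ)) (fun g ℓ ↦ if ℓ ∈ U then 0 else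
      (Nat.card {a : M ≃ₐ[ℚ] M // a * h ℓ * a⁻¹ = g} : ℝ) +
        Nat.card {a : M ≃ₐ[ℚ] M // a * h ℓ * a⁻¹ = g⁻¹}) hbound hs'.1
    simp only [one_mul] at hlin
    rw [← hlin, Finset.sum_sub_distrib, Finset.sum_const, nsmul_eq_mul] at hlow
    have hup : primeSum w s ≤
        2 * Nat.card (M ≃ₐ[ℚ] M) * (η * Real.log (1 / (s - 1)) + C) := by
      refine Real.tsum_le_of_sum_le (fun ℓ ↦ mul_nonneg (Finset.sum_nonneg fun g _ ↦ ?_)
        (by positivity)) fun T ↦ ?_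
      · rw [one_mul]; split_ifs <;> positivity
      refine (Finset.sum_le_sum fun ℓ _ ↦
        mul_le_mul_of_nonneg_right (hw ℓ) (by positivity)).trans ?_
      simp only [mul_assoc (2 * (Nat.card (M ≃ₐ[ℚ] M) : ℝ)), ← Finset.mul_sum, ite_mul, one_mul,
        zero_mul, ← Finset.sum_filter]
      refine mul_le_mul_of_nonneg_left ?_ (by positivity)
      have := hX s hs'.1 hs'.2
        ((T.filter fun ℓ : Nat.Primes ↦ (ℓ : ℕ) ∈ X).map ⟨Subtype.val, Subtype.val_injective⟩)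
        fun p hp ↦ by
          obtain ⟨ℓ, hℓ, rfl⟩ := Finset.mem_map.mp hp
          exact ⟨ℓ.2, (Finset.mem_filter.mp hℓ).2⟩
      exact le_of_eq_of_le (Finset.sum_map _
        (⟨Subtype.val, Subtype.val_injective⟩ : Nat.Primes ↪ ℕ)
        (fun p : ℕ ↦ (p : ℝ) ^ (-s))).symm this
    simp only [hwdef, one_mul] at hup
    linarith
  have hI : (I.card : ℝ) ≤ Nat.card (M ≃ₐ[ℚ] M) * η := by
    by_contra hlt
    push Not at hlt
    have htend : Tendsto (fun s : ℝ ↦ Real.log (1 / (s - 1))) (𝓝[>] 1) atTop := by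
      refine Real.tendsto_log_atTop.comp ?_
      have h : Tendsto (fun s : ℝ ↦ s - 1) (𝓝[>] 1) (𝓝[>] 0) := by
        refine tendsto_nhdsWithin_of_tendsto_nhds_of_eventually_within _ ?_ ?_
        · exact ((continuous_sub_right (1 : ℝ)).tendsto' 1 0 (sub_self 1)).mono_left
            nhdsWithin_le_nhds
        · filter_upwards [self_mem_nhdsWithin] with s hs
          exact sub_pos.mpr (Set.mem_Ioi.mp hs)
      simpa [one_div, Function.comp_def] using tendsto_inv_nhdsGT_zero.comp h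
    obtain ⟨s, h1, h2⟩ := (hev.and ((htend.const_mul_atTop (show (0 : ℝ) <
      (I.card : ℝ) * 2 - 2 * Nat.card (M ≃ₐ[ℚ] M) * η by linarith)).eventually_gt_atTop _)).exists
    exact absurd h1 (not_le.mpr h2)
  have hcardM : Nat.card (M ≃ₐ[ℚ] M) = GK * Fintype.card (ZMod m)ˣ := by
    rw [Nat.card_congr e.toEquiv, Nat.card_prod, Nat.card_eq_fintype_card (α := (ZMod m)ˣ)]
  rw [hIdef, Finset.card_map, Finset.card_product, hcardM] at hI
  push_cast at hI
  linarith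

/-- If every prime whose Frobenius lands in `A` lies in a set of density `≤ η`, then
`|A| ≤ η |G|`. -/
theorem card_le_of_frobenius_mem_imp {G : Type*} [Group G] [Finite G] (ρ : Γℚ →* G)
    (hρ : ∃ L : IntermediateField ℚ ℚ̄, FiniteDimensional ℚ L ∧
      ∀ σ : Γℚ, (∀ x ∈ L, σ x = x) → ρ σ = 1)
    (hsurj : Function.Surjective ρ) (A : Set G) (hAconj : ∀ x ∈ A, ∀ a : G, a * x * a⁻¹ ∈ A)
    (hAinv : ∀ x ∈ A, x⁻¹ ∈ A) (X : Set ℕ) (S : Finset ℕ)
    (hAX : ∀ ℓ : ℕ, ℓ.Prime → ℓ ∉ S → ∀ (P : ValuationSubring ℚ̄) (σ : Γℚ), P.LiesOverPrime ℓ →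
      P.IsFrobeniusAt σ ℓ → ρ σ ∈ A → ℓ ∈ X)
    {η C : ℝ} (hX : ∀ s : ℝ, 1 < s → s ≤ 2 → ∀ T : Finset ℕ, (∀ p ∈ T, p.Prime ∧ p ∈ X) →
      ∑ p ∈ T, (p : ℝ) ^ (-s) ≤ η * Real.log (1 / (s - 1)) + C) :
    (Nat.card A : ℝ) ≤ η * Nat.card G := by
  obtain ⟨L, hL, hker⟩ := hρ
  obtain ⟨i, hi⟩ := IsAlgClosed.exists_pow_nat_eq (-1 : ℚ̄) two_pos
  haveI : FiniteDimensional ℚ (IntermediateField.adjoin ℚ {i}) :=
    IntermediateField.adjoin.finiteDimensional (Algebra.IsIntegral.isIntegral i)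
  let K : IntermediateField ℚ ℚ̄ :=
    IntermediateField.normalClosure ℚ (L ⊔ IntermediateField.adjoin ℚ {i} : IntermediateField ℚ ℚ̄) ℚ̄
  haveI : Normal ℚ K := normalClosure.normal ℚ _ ℚ̄
  haveI : FiniteDimensional ℚ K := normalClosure.is_finiteDimensional ℚ _ ℚ̄
  have hLK : L ≤ K := le_sup_left.trans (IntermediateField.le_normalClosure _)
  have hiK : i ∈ K := IntermediateField.le_normalClosure _
    ((le_sup_right : IntermediateField.adjoin ℚ {i} ≤ L ⊔ IntermediateField.adjoin ℚ {i})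
      (IntermediateField.mem_adjoin_simple_self ℚ i))
  set resK : Γℚ →* (K ≃ₐ[ℚ] K) := AlgEquiv.restrictNormalHom K with hresKdef
  have hresK : Function.Surjective resK := AlgEquiv.restrictNormalHom_surjective (K₁ := K) ℚ̄
  let r : (K ≃ₐ[ℚ] K) →* G := MonoidHom.liftOfSurjective resK hresK
    ⟨ρ, fun σ hσ ↦ hker σ fun x hx ↦ (restrictNormalHom_eq_one_iff K σ).mp hσ x (hLK hx)⟩
  have hr : ∀ σ, r (resK σ) = ρ σ := fun σ ↦
    MonoidHom.liftOfRightInverse_comp_apply resK _ _ ⟨ρ, _⟩ σ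
  have hrsurj : Function.Surjective r := fun y ↦ by
    obtain ⟨σ, rfl⟩ := hsurj y
    exact ⟨resK σ, hr σ⟩
  -- reduce to a preimage in `Gal(K/ℚ)`
  set GK := Nat.card (K ≃ₐ[ℚ] K) with hGKdef
  have hGK : 0 < GK := Nat.card_pos
  suffices hmain : ∀ δ : ℝ, 0 < δ →
      (Nat.card {x : K ≃ₐ[ℚ] K // r x ∈ A} : ℝ) * (1 - δ) ≤ η * GK by
    have hfib : Nat.card {x : K ≃ₐ[ℚ] K // r x ∈ A} * Nat.card G = Nat.card A * GK := by
      have e1 : Nat.card {x : K ≃ₐ[ℚ] K // r x ∈ A} = Nat.card A * Nat.card r.ker := by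
        have := Fintype.ofFinite A
        rw [Nat.card_congr (Equiv.sigmaSubtypeFiberEquivSubtype r (q := (· ∈ A))
          (fun x ↦ Iff.rfl)).symm, Nat.card_sigma]
        have : ∀ y : A, Nat.card {x : K ≃ₐ[ℚ] K // r x = y} = Nat.card r.ker := by
          intro y
          obtain ⟨x₀, hx₀⟩ := hrsurj y
          refine Nat.card_congr ((Equiv.mulLeft x₀).subtypeEquiv fun x ↦ ?_).symm
          simp [hx₀]
        simp only [this, Finset.sum_const, Finset.card_univ, smul_eq_mul]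
        rw [Nat.card_eq_fintype_card (α := A)]
      have e2 : Nat.card G * Nat.card r.ker = GK := by
        rw [hGKdef, ← r.ker.index_mul_card, Subgroup.index_ker,
          MonoidHom.range_eq_top.mpr hrsurj, Subgroup.card_top]
      rw [e1, ← e2]; ring
    by_contra hlt
    push Not at hlt
    have hG : (0 : ℝ) < Nat.card G := by exact_mod_cast Nat.card_pos
    have hGK' : (0 : ℝ) < GK := by exact_mod_cast hGK
    have hA0 : (0 : ℝ) ≤ Nat.card A := Nat.cast_nonneg _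
    set δ := ((Nat.card A : ℝ) - η * Nat.card G) / (2 * (Nat.card A + 1)) with hδdef
    have hδ : 0 < δ := div_pos (by linarith) (by linarith)
    have h := hmain δ hδ
    have hfib' : (Nat.card {x : K ≃ₐ[ℚ] K // r x ∈ A} : ℝ) * Nat.card G = Nat.card A * GK := by
      exact_mod_cast hfib
    have h' : (Nat.card A : ℝ) * GK * (1 - δ) ≤ η * GK * Nat.card G := by
      rw [← hfib', mul_right_comm]
      exact mul_le_mul_of_nonneg_right h hG.le
    have h'' : (Nat.card A : ℝ) * (1 - δ) ≤ η * Nat.card G :=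
      le_of_mul_le_mul_right (by linarith) hGK'
    have hAδ : (Nat.card A : ℝ) * δ ≤ ((Nat.card A : ℝ) - η * Nat.card G) / 2 := by
      rw [hδdef, ← mul_div_assoc, div_le_iff₀ (by linarith)]
      nlinarith
    linarith
  intro δ hδ
  -- the prime `m`
  set N2 := 2 * GK with hN2def
  have hN2 : N2 ≠ 0 := by omega
  obtain ⟨k, hk⟩ := exists_pow_lt_of_lt_one (div_pos hδ (by positivity : (0 : ℝ) < N2))
    (by norm_num : (1 / 2 : ℝ) < 1)
  obtain ⟨m, hmp, hmgt, hmod⟩ := Nat.exists_prime_gt_modEq_one ((discr K).natAbs)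
    (pow_ne_zero (k + 1) hN2)
  haveI : Fact m.Prime := ⟨hmp⟩
  have hcop : (discr K).natAbs.Coprime m :=
    Nat.Coprime.symm ((Nat.Prime.coprime_iff_not_dvd hmp).mpr fun h ↦ absurd
      (Nat.le_of_dvd (Int.natAbs_pos.mpr (discr_ne_zero K)) h) (not_le.mpr hmgt))
  have hdvd : N2 ^ (k + 1) ∣ Fintype.card (ZMod m)ˣ := by
    rw [ZMod.card_units_eq_totient, Nat.totient_prime hmp]
    exact (Nat.modEq_iff_dvd' hmp.one_le).mp hmod.symm
  set Tg := Finset.univ.filter fun a : (ZMod m)ˣ ↦ N2 ∣ orderOf a with hTgdef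
  have hTg : (1 - δ) * Fintype.card (ZMod m)ˣ ≤ (Tg.card : ℝ) := by
    have h1 := card_filter_not_dvd_orderOf_le (X := (ZMod m)ˣ) hN2 hdvd
    have h2 := Finset.card_filter_add_card_filter_not (s := (Finset.univ : Finset (ZMod m)ˣ))
      (fun a ↦ N2 ∣ orderOf a)
    rw [Finset.card_univ] at h2
    set B := (Finset.univ.filter fun a : (ZMod m)ˣ ↦ ¬ N2 ∣ orderOf a).card
    have h1' : (B : ℝ) * 2 ^ (k + 1) ≤ N2 * Fintype.card (ZMod m)ˣ := by exact_mod_cast h1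
    have h2' : (Tg.card : ℝ) + B = Fintype.card (ZMod m)ˣ := by exact_mod_cast h2
    have h3 : (N2 : ℝ) ≤ δ * 2 ^ (k + 1) := by
      rw [lt_div_iff₀ (by positivity), one_div, inv_pow] at hk
      have h4 : (N2 : ℝ) < δ * 2 ^ k := by
        rwa [inv_mul_eq_div, div_lt_iff₀ (by positivity)] at hk
      rw [pow_succ]; nlinarith [show (0 : ℝ) ≤ δ * 2 ^ k by positivity]
    have h5 : (B : ℝ) ≤ δ * Fintype.card (ZMod m)ˣ := by
      refine le_of_mul_le_mul_right (h1'.trans ?_) (by positivity : (0 : ℝ) < 2 ^ (k + 1))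
      rw [mul_right_comm]
      exact mul_le_mul_of_nonneg_right h3 (Nat.cast_nonneg _)
    linarith
  have hI := card_mul_card_le K ⟨i, hiK, hi⟩ hcop r A hAconj hAinv X S
    (fun ℓ hℓ hℓS P σ hP hσ h ↦ hAX ℓ hℓ hℓS P σ hP hσ (hr σ ▸ h)) hX
  set B := Finset.univ.filter fun x : K ≃ₐ[ℚ] K ↦ r x ∈ A with hBdef
  rw [show Nat.card {x : K ≃ₐ[ℚ] K // r x ∈ A} = B.card by
    rw [hBdef, Nat.card_eq_fintype_card, Fintype.card_subtype]]
  have hu0 : (0 : ℝ) < Fintype.card (ZMod m)ˣ := by exact_mod_cast Fintype.card_pos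
  refine le_of_mul_le_mul_right ?_ hu0
  calc (B.card : ℝ) * (1 - δ) * Fintype.card (ZMod m)ˣ ≤ B.card * Tg.card := by
        rw [mul_assoc]; exact mul_le_mul_of_nonneg_left hTg (Nat.cast_nonneg _)
    _ ≤ GK * Fintype.card (ZMod m)ˣ * η := hI
    _ = η * GK * Fintype.card (ZMod m)ˣ := by ring

end Fermat.Agent.DeligneSerre.SymmChebotarev
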